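/-
DS-G (Deligne–Serre group theory): elementary facts on 2×2 matrices — Cayley–Hamilton, semisimple
elements (`g ^ m = 1` with `m` invertible), eigenvectors over an algebraically closed field.
-/
import Mathlib

set_option autoImplicit false

namespace Fermat.Agent.DS

open Matrix

section CommRing

variable {R : Type*} [CommRing R]

/-- Cayley–Hamilton for 2×2 matrices -/
theorem dsg_mul_self (M : Matrix (Fin 2) (Fin 2) R) :
    M * M = M.trace • M - M.det • (1 : Matrix (Fin 2) (Fin 2) R) := by
  ext i j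
  rw [Matrix.sub_apply, Matrix.smul_apply, Matrix.smul_apply, Matrix.mul_apply,
    Fin.sum_univ_two, Matrix.trace_fin_two, Matrix.det_fin_two, smul_eq_mul, smul_eq_mul]
  fin_cases i <;> fin_cases j <;> simp <;> ring

/-- if `tr M = 2α` and `det M = α²` then `(M - α)² = 0` -/
theorem dsg_sub_smul_one_sq (M : Matrix (Fin 2) (Fin 2) R) (α : R) (ht : M.trace = 2 * α)
    (hd : M.det = α ^ 2) :
    (M - α • (1 : Matrix (Fin 2) (Fin 2) R)) * (M - α • (1 : Matrix (Fin 2) (Fin 2) R)) = 0 := by
  have h := dsg_mul_self M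
  rw [ht, hd] at h
  rw [Matrix.sub_mul, Matrix.mul_sub, Matrix.mul_sub, h]
  simp only [Matrix.mul_smul, Matrix.smul_mul, Matrix.mul_one, Matrix.one_mul]
  ext i j
  simp only [Matrix.sub_apply, Matrix.smul_apply, Matrix.zero_apply, smul_eq_mul]
  ring

/-- powers of `α + N` with `N² = 0` -/
theorem dsg_pow_of_sq_zero (N : Matrix (Fin 2) (Fin 2) R) (hN : N * N = 0) (α : R) (m : ℕ) :
    (α • (1 : Matrix (Fin 2) (Fin 2) R) + N) ^ (m + 1)
      = α ^ (m + 1) • (1 : Matrix (Fin 2) (Fin 2) R) + ((m + 1 : ℕ) * α ^ m) • N := by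
  induction m with
  | zero => simp
  | succ m ih =>
    rw [pow_succ, ih, Matrix.add_mul, Matrix.mul_add, Matrix.mul_add]
    simp only [Matrix.smul_mul, Matrix.mul_smul, Matrix.one_mul, Matrix.mul_one, hN, smul_zero,
      add_zero, smul_smul]
    push_cast
    module

end CommRing

section Field

variable {K : Type*} [Field K]

/-- **semisimplicity**: an element of finite order prime to the characteristic whose
"nilpotent part" `g - α` squares to zero is the scalar `α` -/
theorem dsg_eq_smul_one_of_pow_eq_one (g : Matrix (Fin 2) (Fin 2) K) (m : ℕ) (hm : (m : K) ≠ 0)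
    (hg : g ^ m = 1) (α : K)
    (h : (g - α • (1 : Matrix (Fin 2) (Fin 2) K)) * (g - α • (1 : Matrix (Fin 2) (Fin 2) K)) = 0) :
    g = α • (1 : Matrix (Fin 2) (Fin 2) K) := by
  set N := g - α • (1 : Matrix (Fin 2) (Fin 2) K) with hN
  have hgN : g = α • (1 : Matrix (Fin 2) (Fin 2) K) + N := by rw [hN]; abel
  obtain ⟨k, rfl⟩ : ∃ k, m = k + 1 := by
    rcases m with _ | k
    · simp at hm
    · exact ⟨k, rfl⟩
  rw [hgN, dsg_pow_of_sq_zero N h α k] at hg
  -- multiply by `N`
  have h1 : α ^ (k + 1) • N = N := by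
    have := congrArg (fun X => X * N) hg
    simp only [Matrix.add_mul, Matrix.smul_mul, Matrix.one_mul, h, smul_zero, add_zero] at this
    exact this
  by_contra hne
  have hN0 : N ≠ 0 := by
    intro h0
    apply hne
    rw [hgN, h0, add_zero]
  have hα : α ^ (k + 1) = 1 := by
    by_contra hα
    have : (α ^ (k + 1) - 1) • N = 0 := by rw [sub_smul, one_smul, h1, sub_self]
    rcases smul_eq_zero.mp this with h2 | h2
    · exact hα (sub_eq_zero.mp h2)
    · exact hN0 h2
  rw [hα, one_smul] at hg
  have h2 : (((k + 1 : ℕ) : K) * α ^ k) • N = 0 := by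
    have := hg
    rwa [add_eq_left] at this
  have hα0 : α ≠ 0 := by
    intro h0
    rw [h0, zero_pow (Nat.succ_ne_zero k)] at hα
    exact zero_ne_one hα
  rcases smul_eq_zero.mp h2 with h3 | h3
  · exact (mul_ne_zero hm (pow_ne_zero k hα0)) h3
  · exact hN0 h3

/-- an element of finite order prime to the characteristic which is unipotent is trivial -/
theorem dsg_eq_one_of_pow_eq_one (g : Matrix (Fin 2) (Fin 2) K) (m : ℕ) (hm : (m : K) ≠ 0)
    (hg : g ^ m = 1) (h : (g - 1) * (g - 1) = 0) : g = 1 := by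
  have := dsg_eq_smul_one_of_pow_eq_one g m hm hg 1 (by simpa using h)
  simpa using this

/-- a matrix with the eigenvalue `1` and determinant `1` is unipotent -/
theorem dsg_unipotent_of_fixed (g : Matrix (Fin 2) (Fin 2) K) (v : Fin 2 → K) (hv : v ≠ 0)
    (hgv : g *ᵥ v = v) (hdet : g.det = 1) : (g - 1) * (g - 1) = 0 := by
  have h1 : (g - 1).det = 0 := by
    rw [← Matrix.exists_mulVec_eq_zero_iff]
    exact ⟨v, hv, by rw [Matrix.sub_mulVec, hgv, Matrix.one_mulVec, sub_self]⟩
  have htr : g.trace = 2 * 1 := by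
    rw [Matrix.det_fin_two] at h1 hdet
    rw [Matrix.trace_fin_two]
    simp only [Matrix.sub_apply, Matrix.one_apply_eq, Matrix.one_apply_ne, ne_eq, zero_ne_one,
      not_false_eq_true, one_ne_zero, sub_zero] at h1
    linear_combination hdet - h1
  have := dsg_sub_smul_one_sq g 1 htr (by rw [hdet, one_pow])
  simpa using this

end Field

end Fermat.Agent.DS
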