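/-
DS-G: elementary matrices in `GL₂(F)`; a subgroup containing all of them has at least
`q² (q - 1)` elements.
-/
import Mathlib

set_option autoImplicit false

namespace Fermat.Agent.DS

open Matrix

variable {F : Type*} [Field F]

/-- the upper elementary matrix -/
def dsgE12 (s : F) : GL (Fin 2) F :=
  Matrix.GeneralLinearGroup.mkOfDetNeZero !![1, s; 0, 1] (by simp [Matrix.det_fin_two_of])

/-- the lower elementary matrix -/
def dsgE21 (s : F) : GL (Fin 2) F :=
  Matrix.GeneralLinearGroup.mkOfDetNeZero !![1, 0; s, 1] (by simp [Matrix.det_fin_two_of])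

@[simp] theorem dsgE12_val (s : F) :
    ((dsgE12 s : GL (Fin 2) F) : Matrix (Fin 2) (Fin 2) F) = !![1, s; 0, 1] := rfl

@[simp] theorem dsgE21_val (s : F) :
    ((dsgE21 s : GL (Fin 2) F) : Matrix (Fin 2) (Fin 2) F) = !![1, 0; s, 1] := rfl

theorem dsgE12_add (s t : F) : dsgE12 (s + t) = dsgE12 s * dsgE12 t := by
  apply Units.ext
  rw [Units.val_mul, dsgE12_val, dsgE12_val, dsgE12_val]
  ext i j
  fin_cases i <;> fin_cases j <;> simp [Matrix.mul_apply, Fin.sum_univ_two, add_comm]

theorem dsgE21_add (s t : F) : dsgE21 (s + t) = dsgE21 s * dsgE21 t := by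
  apply Units.ext
  rw [Units.val_mul, dsgE21_val, dsgE21_val, dsgE21_val]
  ext i j
  fin_cases i <;> fin_cases j <;> simp [Matrix.mul_apply, Fin.sum_univ_two, add_comm]

theorem dsgE12_zero : dsgE12 (0 : F) = 1 := by
  apply Units.ext
  rw [dsgE12_val]
  ext i j
  fin_cases i <;> fin_cases j <;> simp

theorem dsgE21_zero : dsgE21 (0 : F) = 1 := by
  apply Units.ext
  rw [dsgE21_val]
  ext i j
  fin_cases i <;> fin_cases j <;> simp

theorem dsgE12_pow (s : F) (k : ℕ) : dsgE12 s ^ k = dsgE12 (k • s) := by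
  induction k with
  | zero => rw [pow_zero, zero_smul, dsgE12_zero]
  | succ k ih => rw [pow_succ, ih, ← dsgE12_add, succ_nsmul]

theorem dsgE21_pow (s : F) (k : ℕ) : dsgE21 s ^ k = dsgE21 (k • s) := by
  induction k with
  | zero => rw [pow_zero, zero_smul, dsgE21_zero]
  | succ k ih => rw [pow_succ, ih, ← dsgE21_add, succ_nsmul]

/-- the product `E₁₂(x) E₂₁(r) E₁₂(z)` -/
theorem dsg_triple_val (x r z : F) :
    ((dsgE12 x * dsgE21 r * dsgE12 z : GL (Fin 2) F) : Matrix (Fin 2) (Fin 2) F)
      = !![1 + x * r, (1 + x * r) * z + x; r, r * z + 1] := by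
  rw [Units.val_mul, Units.val_mul, dsgE12_val, dsgE21_val, dsgE12_val]
  ext i j
  fin_cases i <;> fin_cases j <;> simp [Matrix.mul_apply, Fin.sum_univ_two] <;> ring

theorem dsg_triple_injective :
    Function.Injective fun p : F × Fˣ × F => (dsgE12 p.1 * dsgE21 (p.2.1 : F) * dsgE12 p.2.2 :
      GL (Fin 2) F) := by
  rintro ⟨x, r, z⟩ ⟨x', r', z'⟩ h
  have h' := congrArg (fun g : GL (Fin 2) F => (g : Matrix (Fin 2) (Fin 2) F)) h
  simp only [dsg_triple_val] at h'
  have h00 := congrFun (congrFun h' 0) 0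
  have h10 := congrFun (congrFun h' 1) 0
  have h11 := congrFun (congrFun h' 1) 1
  simp at h00 h10 h11
  have hr : r = r' := Units.ext h10
  subst hr
  have hr0 : (r : F) ≠ 0 := r.ne_zero
  have hx : x = x' := by
    have : x * (r : F) = x' * (r : F) := by linear_combination h00
    exact mul_right_cancel₀ hr0 this
  have hz : z = z' := by
    have : (r : F) * z = (r : F) * z' := by linear_combination h11
    exact mul_left_cancel₀ hr0 this
  rw [hx, hz]

/-- a subgroup containing all elementary matrices has at least `q² (q - 1)` elements -/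
theorem dsg_card_ge_of_elem [Finite F] (G : Subgroup (GL (Fin 2) F))
    (h12 : ∀ s : F, dsgE12 s ∈ G) (h21 : ∀ s : F, dsgE21 s ∈ G) :
    Nat.card F * (Nat.card F - 1) * Nat.card F ≤ Nat.card G := by
  classical
  haveI : Fintype F := Fintype.ofFinite F
  haveI : Finite (GL (Fin 2) F) := Finite.of_injective (fun g => (g : Matrix (Fin 2) (Fin 2) F))
    Units.val_injective
  have hinj : Function.Injective fun p : F × Fˣ × F =>
      (⟨dsgE12 p.1 * dsgE21 (p.2.1 : F) * dsgE12 p.2.2,
        G.mul_mem (G.mul_mem (h12 _) (h21 _)) (h12 _)⟩ : G) := by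
    intro p q hpq
    exact dsg_triple_injective (congrArg Subtype.val hpq)
  have := Nat.card_le_card_of_injective _ hinj
  rw [Nat.card_prod, Nat.card_prod, Nat.card_units] at this
  rw [mul_assoc]
  exact this

end Fermat.Agent.DS
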