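/-
DS-G: the action of `GL₂(K)` on the projective line — fixed points are eigenlines; a semisimple
non-scalar element has exactly two fixed points (K algebraically closed).
-/
import Mathlib
import Fermat.Agent.Lib.DS.Group.Basic

set_option autoImplicit false

namespace Fermat.Agent.DS

open Matrix
open scoped LinearAlgebra.Projectivization

variable {K : Type*} [Field K]

/-- the projective line -/
abbrev DsgP1 (K : Type*) [Field K] := ℙ K (Fin 2 → K)

theorem dsg_smul_vec (g : GL (Fin 2) K) (v : Fin 2 → K) : g • v = g.1 *ᵥ v := rfl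

/-- two non-zero vectors define the same point iff their determinant vanishes -/
theorem dsg_mk_eq_mk_iff (v w : Fin 2 → K) (hv : v ≠ 0) (hw : w ≠ 0) :
    Projectivization.mk K v hv = Projectivization.mk K w hw ↔ v 0 * w 1 - v 1 * w 0 = 0 := by
  rw [Projectivization.mk_eq_mk_iff']
  constructor
  · rintro ⟨a, rfl⟩
    simp only [Pi.smul_apply, smul_eq_mul]
    ring
  · intro h
    by_cases hw0 : w 0 = 0
    · have hw1 : w 1 ≠ 0 := by
        intro hw1
        apply hw
        funext i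
        fin_cases i
        · exact hw0
        · exact hw1
      have hv0 : v 0 = 0 := by
        rw [hw0, mul_zero, sub_zero] at h
        exact (mul_eq_zero.mp h).resolve_right hw1
      refine ⟨v 1 / w 1, ?_⟩
      funext i
      fin_cases i
      · simp [hw0, hv0]
      · simp [hw1]
    · refine ⟨v 0 / w 0, ?_⟩
      funext i
      fin_cases i
      · simp [hw0]
      · simp only [Fin.mk_one, Pi.smul_apply, smul_eq_mul]
        field_simp
        linear_combination h

/-- a matrix killing two independent vectors vanishes -/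
theorem dsg_eq_zero_of_mulVec (M : Matrix (Fin 2) (Fin 2) K) (v w : Fin 2 → K)
    (hD : v 0 * w 1 - v 1 * w 0 ≠ 0) (hv : M *ᵥ v = 0) (hw : M *ᵥ w = 0) : M = 0 := by
  have h1 : ∀ i, M i 0 * v 0 + M i 1 * v 1 = 0 := by
    intro i
    have := congrFun hv i
    simpa [Matrix.mulVec, dotProduct, Fin.sum_univ_two] using this
  have h2 : ∀ i, M i 0 * w 0 + M i 1 * w 1 = 0 := by
    intro i
    have := congrFun hw i
    simpa [Matrix.mulVec, dotProduct, Fin.sum_univ_two] using this
  ext i j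
  have e0 : M i 0 * (v 0 * w 1 - v 1 * w 0) = 0 := by
    linear_combination w 1 * h1 i - v 1 * h2 i
  have e1 : M i 1 * (v 0 * w 1 - v 1 * w 0) = 0 := by
    linear_combination v 0 * h2 i - w 0 * h1 i
  fin_cases j
  · exact (mul_eq_zero.mp e0).resolve_right hD
  · exact (mul_eq_zero.mp e1).resolve_right hD

/-- fixed points are eigenlines -/
theorem dsg_smul_mk_eq_iff (g : GL (Fin 2) K) (v : Fin 2 → K) (hv : v ≠ 0) :
    g • Projectivization.mk K v hv = Projectivization.mk K v hv ↔ ∃ c : K, g.1 *ᵥ v = c • v := by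
  rw [Projectivization.smul_mk, Projectivization.mk_eq_mk_iff']
  constructor
  · rintro ⟨a, ha⟩
    exact ⟨a, ha.symm⟩
  · rintro ⟨c, hc⟩
    exact ⟨c, hc.symm⟩

/-- the determinant of `A - c` -/
theorem dsg_det_sub_smul (A : Matrix (Fin 2) (Fin 2) K) (c : K) :
    (A - c • (1 : Matrix (Fin 2) (Fin 2) K)).det = c ^ 2 - A.trace * c + A.det := by
  rw [Matrix.det_fin_two, Matrix.det_fin_two, Matrix.trace_fin_two]
  simp only [Matrix.sub_apply, Matrix.smul_apply, Matrix.one_apply_eq, Matrix.one_apply_ne, ne_eq,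
    zero_ne_one, not_false_eq_true, one_ne_zero, smul_eq_mul, mul_one, mul_zero, sub_zero]
  ring

/-- an eigenvalue is a root of the characteristic polynomial -/
theorem dsg_eigenvalue_root (A : Matrix (Fin 2) (Fin 2) K) (c : K) (v : Fin 2 → K) (hv : v ≠ 0)
    (h : A *ᵥ v = c • v) : c ^ 2 - A.trace * c + A.det = 0 := by
  rw [← dsg_det_sub_smul, ← Matrix.exists_mulVec_eq_zero_iff]
  refine ⟨v, hv, ?_⟩
  rw [Matrix.sub_mulVec, h, Matrix.smul_mulVec, Matrix.one_mulVec, sub_self]

/-- a root of the characteristic polynomial has an eigenvector -/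
theorem dsg_exists_eigenvector (A : Matrix (Fin 2) (Fin 2) K) (c : K)
    (h : c ^ 2 - A.trace * c + A.det = 0) : ∃ v : Fin 2 → K, v ≠ 0 ∧ A *ᵥ v = c • v := by
  rw [← dsg_det_sub_smul, ← Matrix.exists_mulVec_eq_zero_iff] at h
  obtain ⟨v, hv, hAv⟩ := h
  refine ⟨v, hv, ?_⟩
  rw [Matrix.sub_mulVec, Matrix.smul_mulVec, Matrix.one_mulVec, sub_eq_zero] at hAv
  exact hAv

/-- the eigenvalues over an algebraically closed field -/
theorem dsg_exists_eigenvalues [IsAlgClosed K] (A : Matrix (Fin 2) (Fin 2) K) :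
    ∃ α β : K, α + β = A.trace ∧ α * β = A.det := by
  have hdeg : (Polynomial.C (1 : K) * Polynomial.X ^ 2 + Polynomial.C (-A.trace) * Polynomial.X
      + Polynomial.C A.det).degree ≠ 0 := by
    rw [Polynomial.degree_quadratic one_ne_zero]; norm_num
  obtain ⟨α, hα⟩ := IsAlgClosed.exists_root _ hdeg
  simp only [Polynomial.IsRoot, Polynomial.eval_add, Polynomial.eval_mul, Polynomial.eval_C,
    Polynomial.eval_pow, Polynomial.eval_X] at hα
  refine ⟨α, A.trace - α, by ring, ?_⟩
  linear_combination -hα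

/-- semisimple elements: finite order prime to the characteristic -/
def DsgSS (g : GL (Fin 2) K) : Prop := ∃ m : ℕ, (m : K) ≠ 0 ∧ g ^ m = 1

theorem DsgSS.val_pow {g : GL (Fin 2) K} (h : DsgSS g) :
    ∃ m : ℕ, (m : K) ≠ 0 ∧ (g.1 : Matrix (Fin 2) (Fin 2) K) ^ m = 1 := by
  obtain ⟨m, hm, hg⟩ := h
  refine ⟨m, hm, ?_⟩
  have := congrArg (fun x : GL (Fin 2) K => (x.1 : Matrix (Fin 2) (Fin 2) K)) hg
  simpa using this

/-- a semisimple element with a double eigenvalue is scalar -/
theorem DsgSS.eq_smul_one {g : GL (Fin 2) K} (h : DsgSS g) (α : K)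
    (ht : (g.1 : Matrix (Fin 2) (Fin 2) K).trace = 2 * α)
    (hd : (g.1 : Matrix (Fin 2) (Fin 2) K).det = α ^ 2) :
    (g.1 : Matrix (Fin 2) (Fin 2) K) = α • 1 := by
  obtain ⟨m, hm, hg⟩ := h.val_pow
  exact dsg_eq_smul_one_of_pow_eq_one _ m hm hg α (dsg_sub_smul_one_sq _ α ht hd)

/-- **a semisimple non-scalar element has exactly two fixed points on the projective line** -/
theorem dsg_fixedBy_eq_pair [IsAlgClosed K] (g : GL (Fin 2) K) (hss : DsgSS g)
    (hns : ∀ c : K, (g.1 : Matrix (Fin 2) (Fin 2) K) ≠ c • 1) :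
    ∃ x₁ x₂ : DsgP1 K, x₁ ≠ x₂ ∧ MulAction.fixedBy (DsgP1 K) g = {x₁, x₂} := by
  set A : Matrix (Fin 2) (Fin 2) K := g.1 with hA
  obtain ⟨α, β, hsum, hprod⟩ := dsg_exists_eigenvalues A
  have hrootα : α ^ 2 - A.trace * α + A.det = 0 := by rw [← hsum, ← hprod]; ring
  have hrootβ : β ^ 2 - A.trace * β + A.det = 0 := by rw [← hsum, ← hprod]; ring
  have hαβ : α ≠ β := by
    intro h
    apply hns α
    apply hss.eq_smul_one α
    · rw [← hA, ← hsum, h]; ring
    · rw [← hA, ← hprod, h]; ring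
  obtain ⟨v₁, hv₁, hAv₁⟩ := dsg_exists_eigenvector A α hrootα
  obtain ⟨v₂, hv₂, hAv₂⟩ := dsg_exists_eigenvector A β hrootβ
  have key : ∀ (c : K) (v w : Fin 2 → K) (hv : v ≠ 0) (hw : w ≠ 0), A *ᵥ v = c • v →
      A *ᵥ w = c • w → Projectivization.mk K v hv = Projectivization.mk K w hw := by
    intro c v w hv hw h1 h2
    rw [dsg_mk_eq_mk_iff]
    by_contra hD
    apply hns c
    have : A - c • (1 : Matrix (Fin 2) (Fin 2) K) = 0 := by
      refine dsg_eq_zero_of_mulVec _ v w hD ?_ ?_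
      · rw [Matrix.sub_mulVec, h1, Matrix.smul_mulVec, Matrix.one_mulVec, sub_self]
      · rw [Matrix.sub_mulVec, h2, Matrix.smul_mulVec, Matrix.one_mulVec, sub_self]
    exact sub_eq_zero.mp this
  refine ⟨Projectivization.mk K v₁ hv₁, Projectivization.mk K v₂ hv₂, ?_, ?_⟩
  · intro h
    rw [Projectivization.mk_eq_mk_iff'] at h
    obtain ⟨a, ha⟩ := h
    have h1 : A *ᵥ v₁ = β • v₁ := by
      rw [← ha, Matrix.mulVec_smul, hAv₂, smul_comm]
    have h2 : (α - β) • v₁ = 0 := by rw [sub_smul, ← hAv₁, ← h1, sub_self]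
    rcases smul_eq_zero.mp h2 with h3 | h3
    · exact hαβ (sub_eq_zero.mp h3)
    · exact hv₁ h3
  · ext x
    rw [MulAction.mem_fixedBy, Set.mem_insert_iff, Set.mem_singleton_iff]
    constructor
    · induction x using Projectivization.ind with
      | h v hv =>
        intro hx
        obtain ⟨c, hc⟩ := (dsg_smul_mk_eq_iff g v hv).mp hx
        have hroot := dsg_eigenvalue_root A c v hv hc
        have hfac : (c - α) * (c - β) = 0 := by
          rw [← hroot, ← hsum, ← hprod]; ring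
        rcases mul_eq_zero.mp hfac with h | h
        · left
          have hcα : c = α := sub_eq_zero.mp h
          exact key α v v₁ hv hv₁ (hcα ▸ hc) hAv₁
        · right
          have hcβ : c = β := sub_eq_zero.mp h
          exact key β v v₂ hv hv₂ (hcβ ▸ hc) hAv₂
    · rintro (rfl | rfl)
      · exact (dsg_smul_mk_eq_iff g v₁ hv₁).mpr ⟨α, hAv₁⟩
      · exact (dsg_smul_mk_eq_iff g v₂ hv₂).mpr ⟨β, hAv₂⟩

theorem dsg_fixedBy_ncard [IsAlgClosed K] (g : GL (Fin 2) K) (hss : DsgSS g)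
    (hns : ∀ c : K, (g.1 : Matrix (Fin 2) (Fin 2) K) ≠ c • 1) :
    (MulAction.fixedBy (DsgP1 K) g).ncard = 2 := by
  obtain ⟨x₁, x₂, hne, h⟩ := dsg_fixedBy_eq_pair g hss hns
  rw [h, Set.ncard_pair hne]

/-- scalar matrices act trivially -/
theorem dsg_scalar_smul (g : GL (Fin 2) K) (c : K) (h : (g.1 : Matrix (Fin 2) (Fin 2) K) = c • 1)
    (x : DsgP1 K) : g • x = x := by
  induction x using Projectivization.ind with
  | h v hv =>
    rw [dsg_smul_mk_eq_iff]
    exact ⟨c, by rw [h, Matrix.smul_mulVec, Matrix.one_mulVec]⟩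

/-- an element acting trivially is scalar -/
theorem dsg_scalar_of_smul (g : GL (Fin 2) K) (h : ∀ x : DsgP1 K, g • x = x) :
    ∃ c : K, (g.1 : Matrix (Fin 2) (Fin 2) K) = c • 1 := by
  have e0 : (![1, 0] : Fin 2 → K) ≠ 0 := by
    intro h0; have := congrFun h0 0; simp at this
  have e1 : (![0, 1] : Fin 2 → K) ≠ 0 := by
    intro h0; have := congrFun h0 1; simp at this
  have e2 : (![1, 1] : Fin 2 → K) ≠ 0 := by
    intro h0; have := congrFun h0 0; simp at this
  obtain ⟨a, ha⟩ := (dsg_smul_mk_eq_iff g _ e0).mp (h _)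
  obtain ⟨b, hb⟩ := (dsg_smul_mk_eq_iff g _ e1).mp (h _)
  obtain ⟨c, hc⟩ := (dsg_smul_mk_eq_iff g _ e2).mp (h _)
  have ha0 := congrFun ha 0
  have ha1 := congrFun ha 1
  have hb0 := congrFun hb 0
  have hb1 := congrFun hb 1
  have hc0 := congrFun hc 0
  have hc1 := congrFun hc 1
  simp [Matrix.mulVec, dotProduct, Fin.sum_univ_two] at ha0 ha1 hb0 hb1 hc0 hc1
  refine ⟨a, ?_⟩
  ext i j
  fin_cases i <;> fin_cases j <;> simp
  · exact ha0
  · exact hb0
  · exact ha1
  · rw [hb1]; rw [ha0, hb0] at hc0; rw [ha1, hb1] at hc1; linear_combination hc1 - hc0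

end Fermat.Agent.DS
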