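/-
DS-G, case (i): a semisimple subgroup of `GL₂(𝔽_ℓ)` of order divisible by `ℓ` contains a conjugate
of `SL₂(𝔽_ℓ)`; in particular it has at least `ℓ² (ℓ - 1)` elements.
-/
import Mathlib
import Fermat.Agent.Lib.DS.Group.Proj
import Fermat.Agent.Lib.DS.Group.Elem

set_option autoImplicit false

namespace Fermat.Agent.DS

open Matrix
open scoped LinearAlgebra.Projectivization

section Nilp

variable {K : Type*} [Field K]

/-- powers of a matrix of determinant zero -/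
theorem dsg_pow_of_det_zero (N : Matrix (Fin 2) (Fin 2) K) (hdet : N.det = 0) (k : ℕ) :
    N ^ (k + 1) = N.trace ^ k • N := by
  induction k with
  | zero => simp
  | succ k ih =>
    rw [pow_succ, ih, Matrix.smul_mul, dsg_mul_self, hdet, zero_smul, sub_zero, smul_smul,
      ← pow_succ]

/-- a nilpotent 2×2 matrix squares to zero -/
theorem dsg_sq_zero_of_pow (N : Matrix (Fin 2) (Fin 2) K) (m : ℕ) (h : N ^ m = 0) : N * N = 0 := by
  rcases m with _ | m
  · exfalso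
    rw [pow_zero] at h
    have := congrFun (congrFun h 0) 0
    simp at this
  have hdet : N.det = 0 := by
    have := congrArg Matrix.det h
    rw [Matrix.det_pow, Matrix.det_zero] at this
    exact (pow_eq_zero_iff (Nat.succ_ne_zero m)).mp this
  by_cases hN : N = 0
  · rw [hN, mul_zero]
  rw [dsg_pow_of_det_zero N hdet m] at h
  have htr : N.trace = 0 := by
    rcases smul_eq_zero.mp h with h1 | h1
    · by_cases hm : m = 0
      · subst hm
        rw [pow_zero] at h1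
        exact absurd h1 one_ne_zero
      · exact (pow_eq_zero_iff hm).mp h1
    · exact absurd h1 hN
  rw [dsg_mul_self, hdet, htr, zero_smul, zero_smul, sub_zero]

/-- the image of a non-zero matrix with `N² = 0` is its kernel -/
theorem dsg_nilp_image (N : Matrix (Fin 2) (Fin 2) K) (hN2 : N * N = 0) (hN0 : N ≠ 0)
    (v w : Fin 2 → K) (hD : v 0 * w 1 - v 1 * w 0 ≠ 0) (hv : N *ᵥ v = 0) :
    ∃ a : K, a ≠ 0 ∧ N *ᵥ w = a • v := by
  have hv0 : v ≠ 0 := by
    rintro rfl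
    simp at hD
  set w' := N *ᵥ w with hw'
  have hw'0 : w' ≠ 0 := by
    intro h0
    exact hN0 (dsg_eq_zero_of_mulVec N v w hD hv h0)
  have hNw' : N *ᵥ w' = 0 := by
    rw [hw', Matrix.mulVec_mulVec, hN2, Matrix.zero_mulVec]
  have hdep : w' 0 * v 1 - w' 1 * v 0 = 0 := by
    by_contra hD'
    exact hN0 (dsg_eq_zero_of_mulVec N w' v hD' hNw' hv)
  have := (dsg_mk_eq_mk_iff w' v hw'0 hv0).mpr hdep
  rw [Projectivization.mk_eq_mk_iff'] at this
  obtain ⟨a, ha⟩ := this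
  refine ⟨a, ?_, ha.symm⟩
  rintro rfl
  rw [zero_smul] at ha
  exact hw'0 ha.symm

end Nilp

section Main

variable (ℓ : ℕ) [Fact ℓ.Prime]

/-- the semisimplicity hypothesis in projective form: every `G`-stable line has a `G`-stable
complement -/
def DsgSemisimple {K : Type*} [Field K] (G : Subgroup (GL (Fin 2) K)) : Prop :=
  ∀ x : DsgP1 K, (∀ g ∈ G, g • x = x) → ∃ y : DsgP1 K, y ≠ x ∧ ∀ g ∈ G, g • y = y

/-- in a subgroup of `GL₂(𝔽_ℓ)` containing `E₁₂(a)`, `a ≠ 0`, all `E₁₂(s)` -/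
theorem dsg_E12_mem (G : Subgroup (GL (Fin 2) (ZMod ℓ))) (a : ZMod ℓ) (ha : a ≠ 0)
    (h : dsgE12 a ∈ G) (s : ZMod ℓ) : dsgE12 s ∈ G := by
  have : s = (s / a).val • a := by
    rw [nsmul_eq_mul, ZMod.natCast_zmod_val, div_mul_cancel₀ s ha]
  rw [this, ← dsgE12_pow]
  exact G.pow_mem h _

theorem dsg_E21_mem (G : Subgroup (GL (Fin 2) (ZMod ℓ))) (a : ZMod ℓ) (ha : a ≠ 0)
    (h : dsgE21 a ∈ G) (s : ZMod ℓ) : dsgE21 s ∈ G := by
  have : s = (s / a).val • a := by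
    rw [nsmul_eq_mul, ZMod.natCast_zmod_val, div_mul_cancel₀ s ha]
  rw [this, ← dsgE21_pow]
  exact G.pow_mem h _

/-- multiplying a matrix by the matrix with columns `v₁`, `v₂` -/
theorem dsg_mul_cols {K : Type*} [Field K] (U : Matrix (Fin 2) (Fin 2) K) (v₁ v₂ w₁ w₂ : Fin 2 → K)
    (h1 : U *ᵥ v₁ = w₁) (h2 : U *ᵥ v₂ = w₂) :
    U * !![v₁ 0, v₂ 0; v₁ 1, v₂ 1] = !![w₁ 0, w₂ 0; w₁ 1, w₂ 1] := by
  subst h1; subst h2
  ext i j
  fin_cases i <;> fin_cases j <;>
    simp [Matrix.mul_apply, Matrix.mulVec, dotProduct, Fin.sum_univ_two]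

/-- **case (i)**: a semisimple subgroup of `GL₂(𝔽_ℓ)` of order divisible by `ℓ` has at least
`ℓ² (ℓ - 1)` elements (it contains a conjugate of `SL₂(𝔽_ℓ)`) -/
theorem dsg_card_ge_of_dvd (G : Subgroup (GL (Fin 2) (ZMod ℓ))) (hss : DsgSemisimple G)
    (hdvd : ℓ ∣ Nat.card G) : ℓ * (ℓ - 1) * ℓ ≤ Nat.card G := by
  classical
  haveI : Finite (GL (Fin 2) (ZMod ℓ)) :=
    Finite.of_injective (fun g => (g : Matrix (Fin 2) (Fin 2) (ZMod ℓ))) Units.val_injective
  obtain ⟨u, hu⟩ := exists_prime_orderOf_dvd_card' ℓ hdvd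
  set U : Matrix (Fin 2) (Fin 2) (ZMod ℓ) := (u : GL (Fin 2) (ZMod ℓ)).1 with hU
  have hUpow : U ^ ℓ = 1 := by
    have h1 : u ^ ℓ = 1 := by
      have := pow_orderOf_eq_one u
      rwa [hu] at this
    have := congrArg
      (fun x : G => ((x : GL (Fin 2) (ZMod ℓ)).1 : Matrix (Fin 2) (Fin 2) (ZMod ℓ))) h1
    simpa using this
  set N := U - 1 with hN
  have hNpow : N ^ ℓ = 0 := by
    rw [hN, sub_pow_char_of_commute ℓ (Commute.one_right U), hUpow, one_pow, sub_self]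
  have hN2 : N * N = 0 := dsg_sq_zero_of_pow N ℓ hNpow
  have hN0 : N ≠ 0 := by
    intro h0
    have hU1 : U = 1 := sub_eq_zero.mp h0
    have : u = 1 := Subtype.ext (Units.ext hU1)
    rw [this, orderOf_one] at hu
    exact (Fact.out : ℓ.Prime).one_lt.ne hu
  have hdet : N.det = 0 := by
    have := congrArg Matrix.det hN2
    rw [Matrix.det_mul, Matrix.det_zero] at this
    exact mul_self_eq_zero.mp this
  obtain ⟨v₁, hv₁, hNv₁⟩ := Matrix.exists_mulVec_eq_zero_iff.mpr hdet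
  -- a group element moving `[v₁]`
  obtain ⟨g, hgG, hg⟩ : ∃ g ∈ G, g • Projectivization.mk (ZMod ℓ) v₁ hv₁
      ≠ Projectivization.mk (ZMod ℓ) v₁ hv₁ := by
    by_contra hcon
    push Not at hcon
    obtain ⟨y, hy, hyG⟩ := hss _ hcon
    induction y using Projectivization.ind with
    | h w hw =>
      have hD : v₁ 0 * w 1 - v₁ 1 * w 0 ≠ 0 := fun h =>
        hy ((dsg_mk_eq_mk_iff w v₁ hw hv₁).mpr (by linear_combination -h))
      obtain ⟨c, hc⟩ := (dsg_smul_mk_eq_iff (u : GL (Fin 2) (ZMod ℓ)) w hw).mp (hyG u u.2)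
      have hNw : N *ᵥ w = (c - 1) • w := by
        rw [hN, Matrix.sub_mulVec, Matrix.one_mulVec, sub_smul, one_smul, ← hc]
      have h2 : (c - 1) • ((c - 1) • w) = 0 := by
        rw [← hNw, ← Matrix.mulVec_smul, ← hNw, Matrix.mulVec_mulVec, hN2, Matrix.zero_mulVec]
      have hc1 : c - 1 = 0 := by
        rw [smul_smul] at h2
        rcases smul_eq_zero.mp h2 with h3 | h3
        · exact mul_self_eq_zero.mp h3
        · exact absurd h3 hw
      rw [hc1, zero_smul] at hNw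
      exact hN0 (dsg_eq_zero_of_mulVec N v₁ w hD hNv₁ hNw)
  set v₂ : Fin 2 → ZMod ℓ := g.1 *ᵥ v₁ with hv₂def
  have hv₂ : v₂ ≠ 0 := by
    intro h0
    apply hv₁
    have : g • v₁ = 0 := h0
    exact (smul_eq_zero_iff_eq g).mp this
  have hD : v₁ 0 * v₂ 1 - v₁ 1 * v₂ 0 ≠ 0 := by
    intro h
    apply hg
    rw [Projectivization.smul_mk]
    exact (dsg_mk_eq_mk_iff _ v₁ _ hv₁).mpr (by rw [dsg_smul_vec]; linear_combination -h)
  obtain ⟨a, ha0, ha⟩ := dsg_nilp_image N hN2 hN0 v₁ v₂ hD hNv₁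
  -- the conjugate
  set gi : Matrix (Fin 2) (Fin 2) (ZMod ℓ) := (g⁻¹ : GL (Fin 2) (ZMod ℓ)).1 with hgi
  have hgig : gi * g.1 = 1 := by
    rw [hgi, ← Units.val_mul, inv_mul_cancel, Units.val_one]
  have hggi : g.1 * gi = 1 := by
    rw [hgi, ← Units.val_mul, mul_inv_cancel, Units.val_one]
  set N' := g.1 * N * gi with hN'
  have hN'2 : N' * N' = 0 := by
    rw [hN']
    calc g.1 * N * gi * (g.1 * N * gi) = g.1 * N * (gi * g.1) * N * gi := by
          simp only [Matrix.mul_assoc]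
      _ = 0 := by rw [hgig, Matrix.mul_one, Matrix.mul_assoc g.1 N N, hN2, Matrix.mul_zero,
          Matrix.zero_mul]
  have hN'0 : N' ≠ 0 := by
    intro h0
    apply hN0
    have : N = gi * N' * g.1 := by
      rw [hN']
      calc N = (gi * g.1) * N * (gi * g.1) := by rw [hgig, Matrix.one_mul, Matrix.mul_one]
        _ = gi * (g.1 * N * gi) * g.1 := by simp only [Matrix.mul_assoc]
    rw [this, h0, Matrix.mul_zero, Matrix.zero_mul]
  have hN'v₂ : N' *ᵥ v₂ = 0 := by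
    rw [hN', hv₂def, Matrix.mulVec_mulVec, Matrix.mul_assoc, hgig, Matrix.mul_one,
      ← Matrix.mulVec_mulVec, hNv₁, Matrix.mulVec_zero]
  have hD' : v₂ 0 * v₁ 1 - v₂ 1 * v₁ 0 ≠ 0 := fun h => hD (by linear_combination -h)
  obtain ⟨c, hc0, hc⟩ := dsg_nilp_image N' hN'2 hN'0 v₂ v₁ hD' hN'v₂
  -- the change of basis
  set P : Matrix (Fin 2) (Fin 2) (ZMod ℓ) := !![v₁ 0, v₂ 0; v₁ 1, v₂ 1] with hP
  have hPdet : P.det ≠ 0 := by
    rw [hP, Matrix.det_fin_two_of]
    intro h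
    exact hD (by linear_combination h)
  set Pg : GL (Fin 2) (ZMod ℓ) := Matrix.GeneralLinearGroup.mkOfDetNeZero P hPdet with hPg
  have hPgval : (Pg.1 : Matrix (Fin 2) (Fin 2) (ZMod ℓ)) = P := rfl
  set u' : G := ⟨g, hgG⟩ * u * ⟨g, hgG⟩⁻¹ with hu'
  have hU' : ((u' : GL (Fin 2) (ZMod ℓ)).1 : Matrix (Fin 2) (Fin 2) (ZMod ℓ)) = 1 + N' := by
    rw [hu', hN', hN]
    simp only [Subgroup.coe_mul, Subgroup.coe_inv, Units.val_mul]
    rw [← hgi, ← hU, Matrix.mul_sub, Matrix.sub_mul, Matrix.mul_one, hggi]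
    abel
  have e1 : (u : GL (Fin 2) (ZMod ℓ)) * Pg = Pg * dsgE12 a := by
    apply Units.ext
    rw [Units.val_mul, Units.val_mul, hPgval, dsgE12_val, ← hU, hP]
    have hUeq : U = 1 + N := by rw [hN]; abel
    rw [dsg_mul_cols U v₁ v₂ v₁ (v₂ + a • v₁)
      (by rw [hUeq, Matrix.add_mulVec, Matrix.one_mulVec, hNv₁, add_zero])
      (by rw [hUeq, Matrix.add_mulVec, Matrix.one_mulVec, ha])]
    ext i j
    fin_cases i <;> fin_cases j <;> simp [Matrix.mul_apply, Fin.sum_univ_two] <;> ring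
  have e2 : (u' : GL (Fin 2) (ZMod ℓ)) * Pg = Pg * dsgE21 c := by
    apply Units.ext
    rw [Units.val_mul, Units.val_mul, hPgval, dsgE21_val, hU', hP]
    rw [dsg_mul_cols (1 + N') v₁ v₂ (v₁ + c • v₂) v₂
      (by rw [Matrix.add_mulVec, Matrix.one_mulVec, hc])
      (by rw [Matrix.add_mulVec, Matrix.one_mulVec, hN'v₂, add_zero])]
    ext i j
    fin_cases i <;> fin_cases j <;> simp [Matrix.mul_apply, Fin.sum_univ_two] <;> ring
  -- the conjugate subgroup
  set G' : Subgroup (GL (Fin 2) (ZMod ℓ)) := G.map (MulAut.conj Pg⁻¹).toMonoidHom with hG'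
  have hcard : Nat.card G' = Nat.card G :=
    Subgroup.card_map_of_injective (MulAut.conj Pg⁻¹).injective
  have m1 : dsgE12 a ∈ G' := by
    refine ⟨(u : GL (Fin 2) (ZMod ℓ)), u.2, ?_⟩
    simp only [MulEquiv.coe_toMonoidHom, MulAut.conj_apply, inv_inv]
    rw [mul_assoc, e1, inv_mul_cancel_left]
  have m2 : dsgE21 c ∈ G' := by
    refine ⟨(u' : GL (Fin 2) (ZMod ℓ)), u'.2, ?_⟩
    simp only [MulEquiv.coe_toMonoidHom, MulAut.conj_apply, inv_inv]
    rw [mul_assoc, e2, inv_mul_cancel_left]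
  have := dsg_card_ge_of_elem G' (dsg_E12_mem ℓ G' a ha0 m1) (dsg_E21_mem ℓ G' c hc0 m2)
  rw [Nat.card_zmod, hcard] at this
  exact this

end Main

end Fermat.Agent.DS
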