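/-
DS-G: the arithmetic of the orbit counting formula `∑ (1 - 1/e_i) = 2 - 2/n`.
-/
import Mathlib

set_option autoImplicit false

namespace Fermat.Agent.DS

/-- three orbits, the first stabiliser of order `2`, the second of order `2` or `3` -/
theorem dsg_arith_aux2 (n s0 s1 s2 e1 e2 : ℕ) (h0 : s0 * 2 = n) (h1 : s1 * e1 = n)
    (h2 : s2 * e2 = n) (hs : s0 + s1 + s2 = n + 2) (he1 : e1 = 2 ∨ e1 = 3) (he2 : 2 ≤ e2)
    (hs2 : 13 ≤ s2) : False := by
  rcases he1 with rfl | rfl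
  · omega
  · have he6 : e2 < 6 := by
      by_contra hcon
      push Not at hcon
      have : s2 * 6 ≤ s2 * e2 := Nat.mul_le_mul_left _ hcon
      omega
    interval_cases e2 <;> omega

/-- three orbits, the first stabiliser of order `2` -/
theorem dsg_arith_aux1 (n s0 s1 s2 e1 e2 : ℕ) (h0 : s0 * 2 = n) (h1 : s1 * e1 = n)
    (h2 : s2 * e2 = n) (hs : s0 + s1 + s2 = n + 2) (he1 : 2 ≤ e1) (he2 : 2 ≤ e2)
    (hs1 : 13 ≤ s1) (hs2 : 13 ≤ s2) : False := by
  by_cases h : e1 ≤ 3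
  · exact dsg_arith_aux2 n s0 s1 s2 e1 e2 h0 h1 h2 hs (by omega) he2 hs2
  · by_cases h' : e2 ≤ 3
    · exact dsg_arith_aux2 n s0 s2 s1 e2 e1 h0 h2 h1 (by omega) (by omega) he1 hs1
    · push Not at h h'
      have a1 : s1 * 4 ≤ s1 * e1 := Nat.mul_le_mul_left _ h
      have a2 : s2 * 4 ≤ s2 * e2 := Nat.mul_le_mul_left _ h'
      omega

/-- three orbits of size `≥ 13` are impossible -/
theorem dsg_arith3 (n s0 s1 s2 e0 e1 e2 : ℕ) (h0 : s0 * e0 = n) (h1 : s1 * e1 = n)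
    (h2 : s2 * e2 = n) (hs : s0 + s1 + s2 = n + 2) (he0 : 2 ≤ e0) (he1 : 2 ≤ e1) (he2 : 2 ≤ e2)
    (hs0 : 13 ≤ s0) (hs1 : 13 ≤ s1) (hs2 : 13 ≤ s2) : False := by
  by_cases c0 : e0 = 2
  · subst c0
    exact dsg_arith_aux1 n s0 s1 s2 e1 e2 h0 h1 h2 hs he1 he2 hs1 hs2
  by_cases c1 : e1 = 2
  · subst c1
    exact dsg_arith_aux1 n s1 s0 s2 e0 e2 h1 h0 h2 (by omega) he0 he2 hs0 hs2
  by_cases c2 : e2 = 2
  · subst c2
    exact dsg_arith_aux1 n s2 s0 s1 e0 e1 h2 h0 h1 (by omega) he0 he1 hs0 hs1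
  have a0 : s0 * 3 ≤ s0 * e0 := Nat.mul_le_mul_left _ (by omega)
  have a1 : s1 * 3 ≤ s1 * e1 := Nat.mul_le_mul_left _ (by omega)
  have a2 : s2 * 3 ≤ s2 * e2 := Nat.mul_le_mul_left _ (by omega)
  omega

/-- **the orbit counting formula has no solution with all orbits of size `≥ 13`** -/
theorem dsg_orbit_arith {Ω : Type*} [Fintype Ω] (n : ℕ) (hn : 2 ≤ n) (s e : Ω → ℕ)
    (hse : ∀ ω, s ω * e ω = n) (he : ∀ ω, 2 ≤ e ω) (hs : ∀ ω, 13 ≤ s ω)
    (hsum : ∑ ω, s ω + 2 * (n - 1) = Fintype.card Ω * n) : False := by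
  have h2s : ∀ ω, 2 * s ω ≤ n := by
    intro ω
    have := Nat.mul_le_mul_left (s ω) (he ω)
    rw [hse] at this
    omega
  have hup : 2 * ∑ ω, s ω ≤ Fintype.card Ω * n := by
    rw [Finset.mul_sum]
    calc ∑ ω, 2 * s ω ≤ ∑ _ω : Ω, n := Finset.sum_le_sum fun ω _ => h2s ω
      _ = Fintype.card Ω * n := by rw [Finset.sum_const, Finset.card_univ, smul_eq_mul]
  have hlow : 13 * Fintype.card Ω ≤ ∑ ω, s ω := by
    calc 13 * Fintype.card Ω = ∑ _ω : Ω, 13 := by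
          rw [Finset.sum_const, Finset.card_univ, smul_eq_mul, mul_comm]
      _ ≤ ∑ ω, s ω := Finset.sum_le_sum fun ω _ => hs ω
  have hc3 : Fintype.card Ω = 3 := by
    have hle : Fintype.card Ω ≤ 3 := by
      by_contra hcon
      push Not at hcon
      have : 4 * n ≤ Fintype.card Ω * n := Nat.mul_le_mul_right _ hcon
      omega
    have hge : 3 ≤ Fintype.card Ω := by
      by_contra hcon
      push Not at hcon
      have h1 : Fintype.card Ω * n ≤ 2 * n := Nat.mul_le_mul_right _ (by omega)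
      rcases Nat.eq_zero_or_pos (Fintype.card Ω) with h0 | hpos
      · rw [h0, zero_mul] at hsum
        omega
      · omega
    omega
  let f := (Fintype.equivFinOfCardEq hc3).symm
  have hsum3 : ∑ ω, s ω = s (f 0) + s (f 1) + s (f 2) := by
    rw [← Equiv.sum_comp f, Fin.sum_univ_three]
  rw [hc3, hsum3] at hsum
  exact dsg_arith3 n (s (f 0)) (s (f 1)) (s (f 2)) (e (f 0)) (e (f 1)) (e (f 2))
    (hse _) (hse _) (hse _) (by omega) (he _) (he _) (he _) (hs _) (hs _) (hs _)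

end Fermat.Agent.DS
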