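/-
DS-G: a finite group acting on a set such that every element acting non-trivially has exactly two
fixed points has an orbit of size at most `12` (Burnside counting).
-/
import Mathlib
import Fermat.Agent.Lib.DS.Group.Arith

set_option autoImplicit false

namespace Fermat.Agent.DS

open MulAction

theorem dsg_exists_small_orbit {Γ : Type*} [Group Γ] [Finite Γ] {P : Type*} [MulAction Γ P]
    [Nonempty P]
    (h2 : ∀ g : Γ, (∃ x : P, g • x ≠ x) → (fixedBy P g).ncard = 2) :
    ∃ x : P, (stabilizer Γ x).index ≤ 12 := by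
  classical
  by_contra hcon
  push Not at hcon
  -- the kernel of the action
  let Z : Subgroup Γ := (MulAction.toPermHom Γ P).ker
  have hZ : ∀ g, g ∈ Z ↔ ∀ x : P, g • x = x := by
    intro g
    rw [MonoidHom.mem_ker]
    constructor
    · intro h x
      have := congrArg (fun σ : Equiv.Perm P => σ x) h
      simpa using this
    · intro h
      ext x
      simpa using h x
  have hZle : ∀ x : P, Z ≤ stabilizer Γ x := fun x g hg => (hZ g).mp hg x
  -- `Z ≠ ⊤`
  have hZtop : Z ≠ ⊤ := by
    intro h
    obtain ⟨x⟩ := (inferInstance : Nonempty P)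
    have : stabilizer Γ x = ⊤ := top_le_iff.mp (h ▸ hZle x)
    have h1 := hcon x
    rw [this, Subgroup.index_top] at h1
    omega
  set n := Z.index with hn
  have hn2 : 2 ≤ n := by
    have h0 : n ≠ 0 := Subgroup.index_ne_zero_of_finite
    have h1 : n ≠ 1 := fun h => hZtop (Subgroup.index_eq_one.mp h)
    omega
  -- the points with a non-trivial stabiliser
  let X : Set P := {x | ∃ g : Γ, g ∉ Z ∧ g • x = x}
  have hXfin : X.Finite := by
    have : X = ⋃ g ∈ {g : Γ | g ∉ Z}, fixedBy P g := by
      ext x
      simp only [X, Set.mem_ofPred_eq, Set.mem_iUnion, mem_fixedBy, exists_prop]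
    rw [this]
    refine Set.Finite.biUnion (Set.toFinite _) fun g hg => ?_
    have hg' : ∃ x : P, g • x ≠ x := by
      by_contra hno
      push Not at hno
      exact hg ((hZ g).mpr hno)
    exact Set.finite_of_ncard_ne_zero (by rw [h2 g hg']; norm_num)
  let S : SubMulAction Γ P :=
    { carrier := X
      smul_mem' := by
        rintro h x ⟨g, hgZ, hgx⟩
        refine ⟨h * g * h⁻¹, ?_, ?_⟩
        · intro hmem
          apply hgZ
          have : g = h⁻¹ * (h * g * h⁻¹) * h := by group
          rw [this]
          have hnorm : Z.Normal := MonoidHom.normal_ker _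
          have := hnorm.conj_mem _ hmem h⁻¹
          simpa using this
        · rw [mul_smul, mul_smul, inv_smul_smul, hgx] }
  haveI : Finite S := hXfin.to_subtype
  haveI : Fintype S := Fintype.ofFinite S
  haveI : Fintype Γ := Fintype.ofFinite Γ
  haveI : ∀ g : Γ, Fintype (fixedBy S g) := fun g => Fintype.ofFinite _
  haveI : Fintype (Quotient (orbitRel Γ S)) := Fintype.ofFinite _
  have hburn := sum_card_fixedBy_eq_card_orbits_mul_card_group Γ S
  -- the fixed points of the elements
  have hfixZ : ∀ g ∈ Z, Fintype.card (fixedBy S g) = Fintype.card S := by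
    intro g hg
    have : fixedBy S g = Set.univ := by
      ext y
      simp only [mem_fixedBy, Set.mem_univ, iff_true]
      exact Subtype.ext ((hZ g).mp hg y.1)
    rw [← Nat.card_eq_fintype_card, ← Nat.card_eq_fintype_card, this]
    exact Nat.card_congr (Equiv.Set.univ _)
  have hfixN : ∀ g ∉ Z, Fintype.card (fixedBy S g) = 2 := by
    intro g hg
    have hg' : ∃ x : P, g • x ≠ x := by
      by_contra hno
      push Not at hno
      exact hg ((hZ g).mpr hno)
    rw [← h2 g hg', ← Nat.card_eq_fintype_card, ← Nat.card_coe_set_eq]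
    refine Nat.card_congr ⟨fun y => ⟨y.1.1, ?_⟩, fun x => ⟨⟨x.1, ⟨g, hg, x.2⟩⟩, ?_⟩, ?_, ?_⟩
    · have := y.2
      rw [mem_fixedBy] at this ⊢
      exact congrArg Subtype.val this
    · rw [mem_fixedBy]
      exact Subtype.ext x.2
    · intro y; rfl
    · intro x; rfl
  have hsumfix : ∑ g : Γ, Fintype.card (fixedBy S g)
      = Nat.card Z * Fintype.card S + 2 * (Nat.card Γ - Nat.card Z) := by
    rw [← Finset.sum_filter_add_sum_filter_not Finset.univ (fun g => g ∈ Z)]
    rw [Finset.sum_congr rfl (fun g hg => hfixZ g (Finset.mem_filter.mp hg).2),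
      Finset.sum_congr rfl (fun g hg => hfixN g (Finset.mem_filter.mp hg).2),
      Finset.sum_const, Finset.sum_const, smul_eq_mul, smul_eq_mul]
    have hc1 : (Finset.univ.filter fun g => g ∈ Z).card = Nat.card Z := by
      rw [Nat.card_eq_fintype_card, Fintype.card_subtype]
    have hc2 : (Finset.univ.filter fun g => ¬ g ∈ Z).card = Nat.card Γ - Nat.card Z := by
      rw [Finset.filter_not, Finset.card_sdiff_of_subset (Finset.filter_subset _ _), hc1,
        Finset.card_univ, Nat.card_eq_fintype_card (α := Γ)]
    rw [hc1, hc2, mul_comm 2]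
  -- orbits
  have hcardS : Fintype.card S
      = ∑ ω : Quotient (orbitRel Γ S), (stabilizer Γ (ω.out : S).1).index := by
    haveI : ∀ ω : Quotient (orbitRel Γ S), Fintype (orbit Γ ω.out) := fun ω => Fintype.ofFinite _
    rw [Fintype.card_congr (selfEquivSigmaOrbits Γ S), Fintype.card_sigma]
    refine Finset.sum_congr rfl fun ω _ => ?_
    rw [← SubMulAction.stabilizer_of_subMul, index_stabilizer, ← Nat.card_eq_fintype_card,
      Nat.card_coe_set_eq]
  have hse : ∀ ω : Quotient (orbitRel Γ S),
      (stabilizer Γ (ω.out : S).1).index * Z.relIndex (stabilizer Γ (ω.out : S).1) = n := by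
    intro ω
    rw [mul_comm]
    exact Subgroup.relIndex_mul_index (hZle _)
  have he : ∀ ω : Quotient (orbitRel Γ S), 2 ≤ Z.relIndex (stabilizer Γ (ω.out : S).1) := by
    intro ω
    have h0 : Z.relIndex (stabilizer Γ (ω.out : S).1) ≠ 0 := by
      intro h0
      have := hse ω
      rw [h0, mul_zero] at this
      omega
    have h1 : Z.relIndex (stabilizer Γ (ω.out : S).1) ≠ 1 := by
      intro h1
      rw [Subgroup.relIndex_eq_one] at h1
      obtain ⟨g, hgZ, hgx⟩ := (ω.out : S).2
      exact hgZ (h1 hgx)
    omega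
  have hs : ∀ ω : Quotient (orbitRel Γ S), 13 ≤ (stabilizer Γ (ω.out : S).1).index :=
    fun ω => hcon _
  refine dsg_orbit_arith n hn2 _ _ hse he hs ?_
  -- the counting formula
  have hΓ : Nat.card Γ = n * Nat.card Z := (Subgroup.index_mul_card Z).symm
  have hZpos : 0 < Nat.card Z := Nat.card_pos
  rw [hsumfix, ← Nat.card_eq_fintype_card (α := Γ), hΓ, hcardS] at hburn
  have h3 : Nat.card Z * ((∑ ω : Quotient (orbitRel Γ S), (stabilizer Γ (ω.out : S).1).index)
      + 2 * (n - 1)) = Nat.card Z * (Fintype.card (Quotient (orbitRel Γ S)) * n) := by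
    have : n * Nat.card Z - Nat.card Z = (n - 1) * Nat.card Z := by
      rw [Nat.sub_mul, one_mul]
    rw [this] at hburn
    calc Nat.card Z * ((∑ ω : Quotient (orbitRel Γ S), (stabilizer Γ (ω.out : S).1).index)
          + 2 * (n - 1))
        = Nat.card Z * (∑ ω : Quotient (orbitRel Γ S), (stabilizer Γ (ω.out : S).1).index)
          + 2 * ((n - 1) * Nat.card Z) := by ring
      _ = Fintype.card (Quotient (orbitRel Γ S)) * (n * Nat.card Z) := hburn
      _ = Nat.card Z * (Fintype.card (Quotient (orbitRel Γ S)) * n) := by ring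
  exact Nat.eq_of_mul_eq_mul_left hZpos h3

end Fermat.Agent.DS
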