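/-
DS-G: point stabilisers in a group of semisimple elements of `GL₂(K)` are abelian, and contain at
most two elements with a given trace and determinant.
-/
import Mathlib
import Fermat.Agent.Lib.DS.Group.Proj

set_option autoImplicit false

namespace Fermat.Agent.DS

open Matrix
open scoped LinearAlgebra.Projectivization

variable {K : Type*} [Field K]

/-! ### Matrices with two given eigenvectors -/

/-- trace and determinant of a matrix with two independent eigenvectors -/
theorem dsg_trace_det_of_eigen (A : Matrix (Fin 2) (Fin 2) K) (v w : Fin 2 → K)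
    (hD : v 0 * w 1 - v 1 * w 0 ≠ 0) (a b : K) (hv : A *ᵥ v = a • v) (hw : A *ᵥ w = b • w) :
    A.trace = a + b ∧ A.det = a * b := by
  have e1 := congrFun hv 0
  have e2 := congrFun hv 1
  have e3 := congrFun hw 0
  have e4 := congrFun hw 1
  simp only [Matrix.mulVec, dotProduct, Fin.sum_univ_two, Pi.smul_apply, smul_eq_mul] at e1 e2 e3 e4
  have htr : A.trace = a + b := by
    have h : (A.trace - a - b) * (v 0 * w 1 - v 1 * w 0) = 0 := by
      rw [Matrix.trace_fin_two]
      linear_combination w 1 * e1 - v 1 * e3 + v 0 * e4 - w 0 * e2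
    have := (mul_eq_zero.mp h).resolve_right hD
    linear_combination this
  refine ⟨htr, ?_⟩
  have hv0 : v ≠ 0 := by
    rintro rfl
    simp at hD
  have hroot := dsg_eigenvalue_root A a v hv0 hv
  rw [htr] at hroot
  linear_combination hroot

/-- a matrix is determined by its eigenvalues on two independent eigenvectors -/
theorem dsg_eq_of_eigen (A B : Matrix (Fin 2) (Fin 2) K) (v w : Fin 2 → K)
    (hD : v 0 * w 1 - v 1 * w 0 ≠ 0) (a b : K) (hv : A *ᵥ v = a • v) (hw : A *ᵥ w = b • w)
    (hv' : B *ᵥ v = a • v) (hw' : B *ᵥ w = b • w) : A = B := by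
  have := dsg_eq_zero_of_mulVec (A - B) v w hD
    (by rw [Matrix.sub_mulVec, hv, hv', sub_self]) (by rw [Matrix.sub_mulVec, hw, hw', sub_self])
  exact sub_eq_zero.mp this

/-- among three matrices with two common independent eigenvectors and the same trace and
determinant two are equal -/
theorem dsg_three_of_eigen (A B C : Matrix (Fin 2) (Fin 2) K) (v w : Fin 2 → K)
    (hD : v 0 * w 1 - v 1 * w 0 ≠ 0) (a₁ b₁ a₂ b₂ a₃ b₃ : K)
    (hA : A *ᵥ v = a₁ • v ∧ A *ᵥ w = b₁ • w) (hB : B *ᵥ v = a₂ • v ∧ B *ᵥ w = b₂ • w)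
    (hC : C *ᵥ v = a₃ • v ∧ C *ᵥ w = b₃ • w)
    (htAB : A.trace = B.trace) (hdAB : A.det = B.det) (htAC : A.trace = C.trace)
    (hdAC : A.det = C.det) : A = B ∨ A = C ∨ B = C := by
  obtain ⟨tA, dA⟩ := dsg_trace_det_of_eigen A v w hD a₁ b₁ hA.1 hA.2
  obtain ⟨tB, dB⟩ := dsg_trace_det_of_eigen B v w hD a₂ b₂ hB.1 hB.2
  obtain ⟨tC, dC⟩ := dsg_trace_det_of_eigen C v w hD a₃ b₃ hC.1 hC.2
  -- `a₁, a₂, a₃` are roots of the same quadratic
  by_cases h12 : a₁ = a₂
  · left
    have : b₁ = b₂ := by rw [tA, tB, h12] at htAB; exact add_left_cancel htAB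
    subst h12; subst this
    exact dsg_eq_of_eigen A B v w hD a₁ b₁ hA.1 hA.2 hB.1 hB.2
  by_cases h13 : a₁ = a₃
  · right; left
    have : b₁ = b₃ := by rw [tA, tC, h13] at htAC; exact add_left_cancel htAC
    subst h13; subst this
    exact dsg_eq_of_eigen A C v w hD a₁ b₁ hA.1 hA.2 hC.1 hC.2
  by_cases h23 : a₂ = a₃
  · right; right
    have : b₂ = b₃ := by
      have h : B.trace = C.trace := htAB.symm.trans htAC
      rw [tB, tC, h23] at h; exact add_left_cancel h
    subst h23; subst this
    exact dsg_eq_of_eigen B C v w hD a₂ b₂ hB.1 hB.2 hC.1 hC.2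
  exfalso
  -- three distinct roots of `T² - tT + d`
  have q1 : a₁ ^ 2 - A.trace * a₁ + A.det = 0 := by rw [tA, dA]; ring
  have q2 : a₂ ^ 2 - A.trace * a₂ + A.det = 0 := by rw [htAB, hdAB, tB, dB]; ring
  have q3 : a₃ ^ 2 - A.trace * a₃ + A.det = 0 := by rw [htAC, hdAC, tC, dC]; ring
  have s12 : a₁ + a₂ = A.trace := by
    have : (a₁ - a₂) * (a₁ + a₂ - A.trace) = 0 := by linear_combination q1 - q2
    have := (mul_eq_zero.mp this).resolve_left (sub_ne_zero.mpr h12)
    linear_combination this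
  have s13 : a₁ + a₃ = A.trace := by
    have : (a₁ - a₃) * (a₁ + a₃ - A.trace) = 0 := by linear_combination q1 - q3
    have := (mul_eq_zero.mp this).resolve_left (sub_ne_zero.mpr h13)
    linear_combination this
  exact h23 (add_left_cancel (s12.trans s13.symm))

/-! ### Stabilisers -/

theorem dsg_inv_smul_of_smul (g : GL (Fin 2) K) (v : Fin 2 → K) (hv : v ≠ 0) (a : K)
    (h : g • v = a • v) : g⁻¹ • v = a⁻¹ • v := by
  have ha : a ≠ 0 := by
    rintro rfl
    rw [zero_smul] at h
    exact hv ((smul_eq_zero_iff_eq g).mp h)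
  have h1 : a • g⁻¹ • v = v := by rw [← smul_comm, ← h, inv_smul_smul]
  rw [← h1, smul_smul, inv_mul_cancel₀ ha, one_smul, h1]

/-- two semisimple-commutator elements fixing the same point commute -/
theorem dsg_comm_of_fix (g h : GL (Fin 2) K) (hss : DsgSS (g * h * g⁻¹ * h⁻¹)) (x : DsgP1 K)
    (hg : g • x = x) (hh : h • x = x) : g * h = h * g := by
  induction x using Projectivization.ind with
  | h v hv =>
    obtain ⟨a, ha⟩ := (dsg_smul_mk_eq_iff g v hv).mp hg
    obtain ⟨b, hb⟩ := (dsg_smul_mk_eq_iff h v hv).mp hh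
    rw [← dsg_smul_vec] at ha hb
    have hb0 : b ≠ 0 := by
      rintro rfl
      rw [zero_smul] at hb
      exact hv ((smul_eq_zero_iff_eq h).mp hb)
    have ha0 : a ≠ 0 := by
      rintro rfl
      rw [zero_smul] at ha
      exact hv ((smul_eq_zero_iff_eq g).mp ha)
    set c := g * h * g⁻¹ * h⁻¹ with hc
    have hcv : c • v = v := by
      rw [hc, mul_smul, mul_smul, mul_smul, dsg_inv_smul_of_smul h v hv b hb, smul_comm g⁻¹,
        dsg_inv_smul_of_smul g v hv a ha, smul_comm h, smul_comm h, hb, smul_comm g, smul_comm g,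
        smul_comm g, ha, smul_smul, smul_smul, smul_smul]
      have : b⁻¹ * a⁻¹ * b * a = 1 := by field_simp
      rw [this, one_smul]
    have hdet : (c.1 : Matrix (Fin 2) (Fin 2) K).det = 1 := by
      have h1 : Matrix.GeneralLinearGroup.det c = 1 := by
        rw [hc, map_mul, map_mul, map_mul, map_inv, map_inv]
        rw [mul_comm (Matrix.GeneralLinearGroup.det g), mul_assoc, mul_assoc,
          mul_inv_cancel_left, mul_inv_cancel]
      have := congrArg Units.val h1
      simpa using this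
    have hun := dsg_unipotent_of_fixed c.1 v hv hcv hdet
    obtain ⟨m, hm, hpow⟩ := hss.val_pow
    have hc1 : (c.1 : Matrix (Fin 2) (Fin 2) K) = 1 := dsg_eq_one_of_pow_eq_one c.1 m hm hpow hun
    have hc1' : c = 1 := Units.ext hc1
    rw [hc] at hc1'
    have : g * h = (g * h * g⁻¹ * h⁻¹) * (h * g) := by group
    rw [this, hc1', one_mul]

end Fermat.Agent.DS
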