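/-
DS-G: a finite group of semisimple elements of `GL₂(K)` (`K` algebraically closed) has an abelian
subgroup of index `≤ 12` which contains at most two elements of given trace and determinant.
-/
import Mathlib
import Fermat.Agent.Lib.DS.Group.Stab
import Fermat.Agent.Lib.DS.Group.Count

set_option autoImplicit false

namespace Fermat.Agent.DS

open Matrix MulAction
open scoped LinearAlgebra.Projectivization

variable {K : Type*} [Field K] [IsAlgClosed K]

/-- an element commuting with a non-scalar semisimple `g₀` and fixing one of the two fixed points of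
`g₀` also fixes the other one -/
theorem dsg_fix_other (g₀ g : GL (Fin 2) K) (hcomm : g * g₀ = g₀ * g) (x₁ x₂ : DsgP1 K)
    (hne : x₁ ≠ x₂) (hfix : fixedBy (DsgP1 K) g₀ = {x₁, x₂}) (h1 : g • x₁ = x₁) : g • x₂ = x₂ := by
  have h2 : g₀ • x₂ = x₂ := by
    have : x₂ ∈ fixedBy (DsgP1 K) g₀ := by rw [hfix]; simp
    exact this
  have h3 : g • x₂ ∈ fixedBy (DsgP1 K) g₀ := by
    rw [mem_fixedBy, ← mul_smul, ← hcomm, mul_smul, h2]
  rw [hfix, Set.mem_insert_iff, Set.mem_singleton_iff] at h3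
  rcases h3 with h3 | h3
  · exfalso
    apply hne
    have : g • x₂ = g • x₁ := by rw [h3, h1]
    exact (MulAction.injective g this).symm
  · exact h3

variable (Γ : Subgroup (GL (Fin 2) K)) [Finite Γ]

/-- the elements of `Γ` with given trace and determinant in a subgroup `A` -/
def dsgFiber (A : Subgroup Γ) (t d : K) : Set Γ :=
  {a | a ∈ A ∧ ((a : GL (Fin 2) K).1 : Matrix (Fin 2) (Fin 2) K).trace = t ∧
    ((a : GL (Fin 2) K).1 : Matrix (Fin 2) (Fin 2) K).det = d}

theorem dsg_exists_abelian (hΓ : ∀ g ∈ Γ, DsgSS g) :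
    ∃ A : Subgroup Γ, A.index ≤ 12 ∧ (∀ a ∈ A, ∀ b ∈ A, a * b = b * a) ∧
      ∀ t d : K, (dsgFiber Γ A t d).ncard ≤ 2 := by
  classical
  haveI : Nonempty (DsgP1 K) := by
    have e0 : (![1, 0] : Fin 2 → K) ≠ 0 := by
      intro h0; have := congrFun h0 0; simp at this
    exact ⟨Projectivization.mk K _ e0⟩
  have h2 : ∀ g : Γ, (∃ x : DsgP1 K, g • x ≠ x) → (fixedBy (DsgP1 K) g).ncard = 2 := by
    intro g hg
    refine dsg_fixedBy_ncard (g : GL (Fin 2) K) (hΓ g g.2) ?_
    intro c hc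
    obtain ⟨x, hx⟩ := hg
    exact hx (dsg_scalar_smul (g : GL (Fin 2) K) c hc x)
  obtain ⟨x, hx⟩ := dsg_exists_small_orbit (Γ := Γ) (P := DsgP1 K) h2
  refine ⟨stabilizer Γ x, hx, ?_, ?_⟩
  · intro a ha b hb
    apply Subtype.ext
    rw [Subgroup.coe_mul, Subgroup.coe_mul]
    refine dsg_comm_of_fix (a : GL (Fin 2) K) (b : GL (Fin 2) K) ?_ x ha hb
    exact hΓ _ (Γ.mul_mem (Γ.mul_mem (Γ.mul_mem a.2 b.2) (Γ.inv_mem a.2)) (Γ.inv_mem b.2))
  · intro t d
    by_contra hcon
    push Not at hcon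
    rw [Set.two_lt_ncard (Set.toFinite _)] at hcon
    obtain ⟨a, ha, b, hb, c, hc, hab, hac, hbc⟩ := hcon
    obtain ⟨haA, hat, had⟩ := ha
    obtain ⟨hbA, hbt, hbd⟩ := hb
    obtain ⟨hcA, hct, hcd⟩ := hc
    by_cases hsc : ∀ g ∈ stabilizer Γ x, ∃ α : K,
        ((g : GL (Fin 2) K).1 : Matrix (Fin 2) (Fin 2) K) = α • 1
    · -- all scalar
      obtain ⟨α, hα⟩ := hsc a haA
      obtain ⟨β, hβ⟩ := hsc b hbA
      apply hab
      apply Subtype.ext
      apply Units.ext
      rw [hα, hβ]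
      have h1 : 2 * α = 2 * β := by
        have e1 := hat.trans hbt.symm
        rw [hα, hβ, Matrix.trace_smul, Matrix.trace_smul, Matrix.trace_one] at e1
        simp only [Fintype.card_fin, smul_eq_mul, Nat.cast_ofNat] at e1
        linear_combination e1
      have h2 : α ^ 2 = β ^ 2 := by
        have e2 := had.trans hbd.symm
        rw [hα, hβ, Matrix.det_smul, Matrix.det_smul, Matrix.det_one] at e2
        simpa using e2
      have h3 : (α - β) ^ 2 = 0 := by linear_combination h2 + (-β) * h1 + (2 * β) * 0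
      have h4 : α = β := sub_eq_zero.mp (pow_eq_zero_iff (two_ne_zero) |>.mp h3)
      rw [h4]
    · push Not at hsc
      obtain ⟨g₀, hg₀A, hg₀⟩ := hsc
      obtain ⟨x₁, x₂, hne, hfix⟩ := dsg_fixedBy_eq_pair (g₀ : GL (Fin 2) K) (hΓ g₀ g₀.2)
        (fun c hc => hg₀ c hc)
      have hxmem : x ∈ fixedBy (DsgP1 K) (g₀ : GL (Fin 2) K) := hg₀A
      -- the second common fixed point
      obtain ⟨y, hxy, hy⟩ : ∃ y : DsgP1 K, x ≠ y ∧ ∀ g ∈ stabilizer Γ x, g • y = y := by
        have hcomm : ∀ g ∈ stabilizer Γ x,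
            (g : GL (Fin 2) K) * (g₀ : GL (Fin 2) K) = (g₀ : GL (Fin 2) K) * (g : GL (Fin 2) K) := by
          intro g hg
          refine dsg_comm_of_fix (g : GL (Fin 2) K) (g₀ : GL (Fin 2) K) ?_ x hg hg₀A
          exact hΓ _ (Γ.mul_mem (Γ.mul_mem (Γ.mul_mem g.2 g₀.2) (Γ.inv_mem g.2)) (Γ.inv_mem g₀.2))
        rw [hfix, Set.mem_insert_iff, Set.mem_singleton_iff] at hxmem
        rcases hxmem with rfl | rfl
        · exact ⟨x₂, hne, fun g hg =>
            dsg_fix_other (g₀ : GL (Fin 2) K) (g : GL (Fin 2) K) (hcomm g hg) x x₂ hne hfix hg⟩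
        · refine ⟨x₁, hne.symm, fun g hg =>
            dsg_fix_other (g₀ : GL (Fin 2) K) (g : GL (Fin 2) K) (hcomm g hg) x x₁ hne.symm ?_ hg⟩
          rw [hfix, Set.pair_comm]
      -- eigenvectors
      induction x using Projectivization.ind with
      | h v hv =>
        induction y using Projectivization.ind with
        | h w hw =>
          have hD : v 0 * w 1 - v 1 * w 0 ≠ 0 := fun h => hxy ((dsg_mk_eq_mk_iff v w hv hw).mpr h)
          have heig : ∀ g ∈ stabilizer Γ (Projectivization.mk K v hv), ∃ p q : K,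
              ((g : GL (Fin 2) K).1 : Matrix (Fin 2) (Fin 2) K) *ᵥ v = p • v ∧
              ((g : GL (Fin 2) K).1 : Matrix (Fin 2) (Fin 2) K) *ᵥ w = q • w := by
            intro g hg
            obtain ⟨p, hp⟩ := (dsg_smul_mk_eq_iff (g : GL (Fin 2) K) v hv).mp hg
            obtain ⟨q, hq⟩ := (dsg_smul_mk_eq_iff (g : GL (Fin 2) K) w hw).mp (hy g hg)
            exact ⟨p, q, hp, hq⟩
          obtain ⟨p₁, q₁, hA⟩ := heig a haA
          obtain ⟨p₂, q₂, hB⟩ := heig b hbA
          obtain ⟨p₃, q₃, hC⟩ := heig c hcA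
          have := dsg_three_of_eigen _ _ _ v w hD p₁ q₁ p₂ q₂ p₃ q₃ hA hB hC
            (hat.trans hbt.symm) (had.trans hbd.symm) (hat.trans hct.symm) (had.trans hcd.symm)
          rcases this with h | h | h
          · exact hab (Subtype.ext (Units.ext h))
          · exact hac (Subtype.ext (Units.ext h))
          · exact hbc (Subtype.ext (Units.ext h))

end Fermat.Agent.DS
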