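/-
DS-G: counting lemmas — the number of 2×2 matrices over a finite field with given trace and
determinant is at most `q² + q`; a set is at most (number of values) × (size of the fibres).
-/
import Mathlib

set_option autoImplicit false

namespace Fermat.Agent.DS

open Matrix

/-- a finite set is at most the number of values of `f` times a bound for the fibres -/
theorem dsg_ncard_le_mul {α β : Type*} (H : Set α) (hH : H.Finite) (f : α → β) (B : ℕ)
    (hB : ∀ b : β, {a | a ∈ H ∧ f a = b}.ncard ≤ B) : H.ncard ≤ B * (f '' H).ncard := by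
  classical
  obtain ⟨s, rfl⟩ := hH.exists_finset_coe
  rw [Set.ncard_coe_finset, ← Finset.coe_image, Set.ncard_coe_finset]
  refine Finset.card_le_mul_card_image s B ?_
  intro b _
  have := hB b
  have h2 : {a | a ∈ (s : Set α) ∧ f a = b} = ((s.filter fun x => f x = b : Finset α) : Set α) := by
    ext a
    simp
  rw [h2, Set.ncard_coe_finset] at this
  exact this

section Field

variable {F : Type*} [Field F]

/-- the roots of `a (t - a) = d` -/
theorem dsg_roots_ncard_le (t d : F) : {a : F | a * (t - a) = d}.ncard ≤ 2 := by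
  by_contra hcon
  push Not at hcon
  have hfin : {a : F | a * (t - a) = d}.Finite := Set.finite_of_ncard_pos (by omega)
  rw [Set.two_lt_ncard hfin] at hcon
  obtain ⟨a, ha, b, hb, c, hc, hab, hac, hbc⟩ := hcon
  simp only [Set.mem_setOf_eq] at ha hb hc
  have s12 : a + b = t := by
    have : (a - b) * (t - a - b) = 0 := by linear_combination ha - hb
    have := (mul_eq_zero.mp this).resolve_left (sub_ne_zero.mpr hab)
    linear_combination -this
  have s13 : a + c = t := by
    have : (a - c) * (t - a - c) = 0 := by linear_combination ha - hc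
    have := (mul_eq_zero.mp this).resolve_left (sub_ne_zero.mpr hac)
    linear_combination -this
  exact hbc (add_left_cancel (s12.trans s13.symm))

/-- **the number of matrices with given trace and determinant** -/
theorem dsg_trace_det_fiber_ncard_le [Finite F] (t d : F) :
    {A : Matrix (Fin 2) (Fin 2) F | A.trace = t ∧ A.det = d}.ncard
      ≤ Nat.card F ^ 2 + Nat.card F := by
  classical
  set R : Set F := {a : F | a * (t - a) = d} with hR
  let g : (F × Fˣ) ⊕ (R × F) → Matrix (Fin 2) (Fin 2) F := fun x =>
    match x with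
    | Sum.inl p => !![p.1, (p.2 : F); (p.1 * (t - p.1) - d) / (p.2 : F), t - p.1]
    | Sum.inr p => !![(p.1 : F), 0; p.2, t - (p.1 : F)]
  have hsub : {A : Matrix (Fin 2) (Fin 2) F | A.trace = t ∧ A.det = d} ⊆ Set.range g := by
    rintro A ⟨htr, hdet⟩
    rw [Matrix.trace_fin_two] at htr
    rw [Matrix.det_fin_two] at hdet
    by_cases hb : A 0 1 = 0
    · have hmem : A 0 0 ∈ R := by
        rw [hR, Set.mem_setOf_eq]
        rw [hb, zero_mul, sub_zero] at hdet
        rw [← htr, ← hdet]; ring
      refine ⟨Sum.inr (⟨A 0 0, hmem⟩, A 1 0), ?_⟩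
      ext i j
      fin_cases i <;> fin_cases j <;> simp [g]
      · exact hb.symm
      · rw [← htr]; ring
    · refine ⟨Sum.inl (A 0 0, Units.mk0 (A 0 1) hb), ?_⟩
      ext i j
      fin_cases i <;> fin_cases j <;> simp [g]
      · rw [div_eq_iff hb, ← htr, ← hdet]; ring
      · rw [← htr]; ring
  haveI : Finite R := Set.Finite.to_subtype (Set.toFinite R)
  calc {A : Matrix (Fin 2) (Fin 2) F | A.trace = t ∧ A.det = d}.ncard
      ≤ (Set.range g).ncard := Set.ncard_le_ncard hsub (Set.toFinite _)
    _ = (g '' Set.univ).ncard := by rw [Set.image_univ]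
    _ ≤ (Set.univ : Set ((F × Fˣ) ⊕ (R × F))).ncard := Set.ncard_image_le (Set.toFinite _)
    _ = Nat.card ((F × Fˣ) ⊕ (R × F)) := Set.ncard_univ _
    _ = Nat.card F * (Nat.card F - 1) + R.ncard * Nat.card F := by
        rw [Nat.card_sum, Nat.card_prod, Nat.card_prod, Nat.card_units, Nat.card_coe_set_eq]
    _ ≤ Nat.card F * (Nat.card F - 1) + 2 * Nat.card F := by
        have := dsg_roots_ncard_le t d
        gcongr
    _ = Nat.card F ^ 2 + Nat.card F := by
        have hpos : 0 < Nat.card F := Nat.card_pos
        obtain ⟨q, hq⟩ : ∃ q, Nat.card F = q + 1 := ⟨Nat.card F - 1, by omega⟩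
        rw [hq, Nat.add_sub_cancel]
        ring

end Field

end Fermat.Agent.DS
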