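/-
DS-G: **Deligne–Serre, Prop. 7.2** — a semisimple subgroup `G` of `GL₂(𝔽_ℓ)` such that a subset
of density `≥ 119/120` has at most `M` characteristic polynomials satisfies
`|G| ≤ max (240 M) ((2M+1)⁴)`.
-/
import Mathlib
import Fermat.Agent.Lib.DS.Group.Abelian
import Fermat.Agent.Lib.DS.Group.SL2
import Fermat.Agent.Lib.DS.Group.Fiber

set_option autoImplicit false

namespace Fermat.Agent.DS

open Matrix
open scoped LinearAlgebra.Projectivization

/-! ### Case (ii): order prime to the characteristic -/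

section SS

variable {K : Type*} [Field K] [IsAlgClosed K]

/-- a finite group of semisimple elements of `GL₂(K)` in which a subset of density `≥ 119/120`
has at most `M` (trace, determinant) pairs has at most `27 M` elements -/
theorem dsg_card_le_of_ss (Γ : Subgroup (GL (Fin 2) K)) [Finite Γ] (hΓ : ∀ g ∈ Γ, DsgSS g)
    (M : ℕ) (H : Set Γ) (hH : 119 * Nat.card Γ ≤ 120 * H.ncard)
    (hM : ((fun g : Γ => (((g : GL (Fin 2) K).1 : Matrix (Fin 2) (Fin 2) K).trace,
      ((g : GL (Fin 2) K).1 : Matrix (Fin 2) (Fin 2) K).det)) '' H).ncard ≤ M) :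
    Nat.card Γ ≤ 27 * M := by
  classical
  obtain ⟨A, hidx, -, hfib⟩ := dsg_exists_abelian Γ hΓ
  set f : Γ → K × K := fun g => (((g : GL (Fin 2) K).1 : Matrix (Fin 2) (Fin 2) K).trace,
      ((g : GL (Fin 2) K).1 : Matrix (Fin 2) (Fin 2) K).det) with hf
  have h1 : (H ∩ (A : Set Γ)).ncard ≤ 2 * M := by
    calc (H ∩ (A : Set Γ)).ncard ≤ 2 * (f '' (H ∩ (A : Set Γ))).ncard := by
          refine dsg_ncard_le_mul _ (Set.toFinite _) f 2 ?_
          rintro ⟨t, d⟩
          refine le_trans (Set.ncard_le_ncard ?_ (Set.toFinite _)) (hfib t d)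
          rintro a ⟨⟨-, haA⟩, hfa⟩
          rw [hf] at hfa
          simp only [Prod.mk.injEq] at hfa
          exact ⟨haA, hfa.1, hfa.2⟩
      _ ≤ 2 * (f '' H).ncard := by
          gcongr
          · exact Set.toFinite _
          · exact Set.inter_subset_left
      _ ≤ 2 * M := by gcongr
  have h2 : (H ∪ (A : Set Γ)).ncard + (H ∩ (A : Set Γ)).ncard = H.ncard + (A : Set Γ).ncard :=
    Set.ncard_union_add_ncard_inter H (A : Set Γ)
  have h3 : (H ∪ (A : Set Γ)).ncard ≤ Nat.card Γ := by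
    rw [← Set.ncard_univ]
    exact Set.ncard_le_ncard (Set.subset_univ _) (Set.toFinite _)
  have h4 : (A : Set Γ).ncard = Nat.card A := (Nat.card_coe_set_eq (A : Set Γ)).symm
  have h5 : Nat.card A * A.index = Nat.card Γ := Subgroup.card_mul_index A
  have h6 : Nat.card Γ ≤ 12 * Nat.card A := by
    rw [← h5, mul_comm]
    gcongr
  omega

end SS

/-! ### The main theorem -/

section Main

variable (ℓ : ℕ) [Fact ℓ.Prime]

theorem dsg_card_le_pow (G : Subgroup (GL (Fin 2) (ZMod ℓ))) : Nat.card G ≤ ℓ ^ 4 := by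
  have h1 : Nat.card G ≤ Nat.card (Matrix (Fin 2) (Fin 2) (ZMod ℓ)) :=
    Nat.card_le_card_of_injective
      (fun g : G => ((g : GL (Fin 2) (ZMod ℓ)).1 : Matrix (Fin 2) (Fin 2) (ZMod ℓ)))
      (fun a b hab => Subtype.ext (Units.ext hab))
  have h2 : Nat.card (Matrix (Fin 2) (Fin 2) (ZMod ℓ)) = ℓ ^ 4 := by
    show Nat.card (Fin 2 → Fin 2 → ZMod ℓ) = ℓ ^ 4
    rw [Nat.card_fun, Nat.card_fun, Nat.card_zmod, Nat.card_fin, ← pow_mul]
  rw [h2] at h1
  exact h1

/-- trace and determinant from the characteristic polynomial -/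
theorem dsg_trace_det_of_charpoly {R : Type*} [CommRing R] (A : Matrix (Fin 2) (Fin 2) R) :
    A.trace = -A.charpoly.coeff 1 ∧ A.det = A.charpoly.coeff 0 := by
  constructor
  · have := Matrix.trace_eq_neg_charpoly_coeff A
    simpa using this
  · have := Matrix.det_eq_sign_charpoly_coeff A
    simpa using this

/-- **Deligne–Serre, Prop. 7.2** -/
theorem dsg_card_le (G : Subgroup (GL (Fin 2) (ZMod ℓ))) (hss : DsgSemisimple G) (M : ℕ)
    (H : Set G) (hH : 119 * Nat.card G ≤ 120 * H.ncard)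
    (hM : ((fun g : G => ((g : GL (Fin 2) (ZMod ℓ)).1 : Matrix (Fin 2) (Fin 2) (ZMod ℓ)).charpoly)
      '' H).ncard ≤ M) :
    Nat.card G ≤ max (240 * M) ((2 * M + 1) ^ 4) := by
  classical
  haveI : Finite (GL (Fin 2) (ZMod ℓ)) :=
    Finite.of_injective (fun g => (g : Matrix (Fin 2) (Fin 2) (ZMod ℓ))) Units.val_injective
  by_cases hdvd : ℓ ∣ Nat.card G
  · -- case (i)
    refine le_trans ?_ (le_max_right _ _)
    have h1 := dsg_card_ge_of_dvd ℓ G hss hdvd
    set cp : G → Polynomial (ZMod ℓ) := fun g =>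
      ((g : GL (Fin 2) (ZMod ℓ)).1 : Matrix (Fin 2) (Fin 2) (ZMod ℓ)).charpoly with hcp
    have h2 : H.ncard ≤ (ℓ ^ 2 + ℓ) * (cp '' H).ncard := by
      refine dsg_ncard_le_mul H (Set.toFinite _) cp _ ?_
      intro χ
      have := dsg_trace_det_fiber_ncard_le (F := ZMod ℓ) (-χ.coeff 1) (χ.coeff 0)
      rw [Nat.card_zmod] at this
      refine le_trans ?_ this
      refine Set.ncard_le_ncard_of_injOn
        (fun g : G => ((g : GL (Fin 2) (ZMod ℓ)).1 : Matrix (Fin 2) (Fin 2) (ZMod ℓ))) ?_ ?_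
        (Set.toFinite _)
      · rintro g ⟨-, hg⟩
        obtain ⟨ht, hd⟩ := dsg_trace_det_of_charpoly
          ((g : GL (Fin 2) (ZMod ℓ)).1 : Matrix (Fin 2) (Fin 2) (ZMod ℓ))
        rw [hcp] at hg
        simp only at hg
        rw [hg] at ht hd
        exact ⟨ht, hd⟩
      · intro a _ b _ hab
        exact Subtype.ext (Units.ext hab)
    have h3 : H.ncard ≤ (ℓ ^ 2 + ℓ) * M := le_trans h2 (by gcongr)
    have hℓ : ℓ ≤ 2 * M + 1 := by
      by_contra hcon
      push Not at hcon
      obtain ⟨k, rfl⟩ : ∃ k, ℓ = k + 1 := ⟨ℓ - 1, by have := (Fact.out : ℓ.Prime).pos; omega⟩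
      rw [Nat.add_sub_cancel] at h1
      have hk : 2 * M + 1 ≤ k := by omega
      have h4 : 119 * ((k + 1) * k * (k + 1)) ≤ 120 * (((k + 1) ^ 2 + (k + 1)) * M) :=
        le_trans (le_trans (Nat.mul_le_mul_left 119 h1) hH) (Nat.mul_le_mul_left 120 h3)
      have h5 : 119 * (k * (k + 1)) ≤ 120 * ((k + 2) * M) := by
        have : (k + 1) * (119 * (k * (k + 1))) ≤ (k + 1) * (120 * ((k + 2) * M)) := by
          calc (k + 1) * (119 * (k * (k + 1))) = 119 * ((k + 1) * k * (k + 1)) := by ring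
            _ ≤ 120 * (((k + 1) ^ 2 + (k + 1)) * M) := h4
            _ = (k + 1) * (120 * ((k + 2) * M)) := by ring
        exact Nat.le_of_mul_le_mul_left this (Nat.succ_pos k)
      -- `2 M ≤ k - 1`
      have h6 : 120 * ((k + 2) * M) ≤ 60 * ((k + 2) * k) := by
        have : 2 * M ≤ k := by omega
        nlinarith
      nlinarith
    exact le_trans (dsg_card_le_pow ℓ G) (Nat.pow_le_pow_left hℓ 4)
  · -- case (ii)
    refine le_trans ?_ (le_max_left _ _)
    set K := AlgebraicClosure (ZMod ℓ) with hK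
    set φ : GL (Fin 2) (ZMod ℓ) →* GL (Fin 2) K :=
      Matrix.GeneralLinearGroup.map (algebraMap (ZMod ℓ) K) with hφ
    have hφinj : Function.Injective φ := by
      intro a b hab
      apply Units.ext
      ext i j
      have := congrArg (fun g : GL (Fin 2) K => (g.1 : Matrix (Fin 2) (Fin 2) K) i j) hab
      simp only [hφ, Matrix.GeneralLinearGroup.map_apply] at this
      exact (algebraMap (ZMod ℓ) K).injective this
    set Γ : Subgroup (GL (Fin 2) K) := G.map φ with hΓdef
    set e : G ≃* Γ := G.equivMapOfInjective φ hφinj with he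
    haveI : Finite Γ := Finite.of_equiv G e.toEquiv
    have hcard : Nat.card Γ = Nat.card G := Nat.card_congr e.symm.toEquiv
    have hΓ : ∀ g ∈ Γ, DsgSS g := by
      rintro _ ⟨g, hg, rfl⟩
      refine ⟨Nat.card G, ?_, ?_⟩
      · intro h0
        rw [CharP.cast_eq_zero_iff K ℓ] at h0
        exact hdvd h0
      · rw [← map_pow]
        have : (⟨g, hg⟩ : G) ^ Nat.card G = 1 := pow_card_eq_one'
        have h2 : g ^ Nat.card G = 1 := by
          have := congrArg (fun x : G => (x : GL (Fin 2) (ZMod ℓ))) this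
          simp only [Subgroup.coe_pow, Subgroup.coe_one] at this
          exact this
        rw [h2, map_one]
    have hval : ∀ g : G, ((e g : Γ) : GL (Fin 2) K) = φ g := fun g =>
      Subgroup.coe_equivMapOfInjective_apply G φ hφinj g
    have key := dsg_card_le_of_ss Γ hΓ M (e '' H) (by
      rw [hcard, Set.ncard_image_of_injective H e.injective]
      exact hH) (by
      refine le_trans ?_ hM
      set F : Polynomial (ZMod ℓ) → K × K := fun χ =>
        (algebraMap (ZMod ℓ) K (-χ.coeff 1), algebraMap (ZMod ℓ) K (χ.coeff 0)) with hF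
      have : ((fun g : Γ => (((g : GL (Fin 2) K).1 : Matrix (Fin 2) (Fin 2) K).trace,
          ((g : GL (Fin 2) K).1 : Matrix (Fin 2) (Fin 2) K).det)) '' (e '' H))
          = F '' ((fun g : G =>
            ((g : GL (Fin 2) (ZMod ℓ)).1 : Matrix (Fin 2) (Fin 2) (ZMod ℓ)).charpoly) '' H) := by
        rw [Set.image_image, Set.image_image]
        apply Set.image_congr
        intro g _
        obtain ⟨ht, hd⟩ := dsg_trace_det_of_charpoly
          ((g : GL (Fin 2) (ZMod ℓ)).1 : Matrix (Fin 2) (Fin 2) (ZMod ℓ))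
        rw [hF]
        simp only
        rw [← ht, ← hd, hval g, hφ]
        have hmap : ((Matrix.GeneralLinearGroup.map (algebraMap (ZMod ℓ) K) (g : GL (Fin 2) (ZMod ℓ))
            : GL (Fin 2) K).1 : Matrix (Fin 2) (Fin 2) K)
            = ((g : GL (Fin 2) (ZMod ℓ)).1 : Matrix (Fin 2) (Fin 2) (ZMod ℓ)).map
              (algebraMap (ZMod ℓ) K) := rfl
        rw [hmap, AddMonoidHom.map_trace (algebraMap (ZMod ℓ) K), RingHom.map_det]
        rfl
      rw [this]
      exact Set.ncard_image_le (Set.toFinite _))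
    rw [hcard] at key
    omega

end Main

end Fermat.Agent.DS
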