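/-
DS-G: ways of checking the semisimplicity hypothesis `DsgSemisimple` of `dsg_card_le`.
-/
import Mathlib
import Fermat.Agent.Lib.DS.Group.Main

set_option autoImplicit false

namespace Fermat.Agent.DS

open Matrix
open scoped LinearAlgebra.Projectivization

variable {K : Type*} [Field K]

/-- irreducible groups (no stable line) are semisimple -/
theorem dsgSemisimple_of_irreducible (G : Subgroup (GL (Fin 2) K))
    (h : ∀ x : DsgP1 K, ¬ ∀ g ∈ G, g • x = x) : DsgSemisimple G :=
  fun x hx => absurd hx (h x)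

/-- irreducible groups, vector form: no common eigenvector -/
theorem dsgSemisimple_of_no_eigenvector (G : Subgroup (GL (Fin 2) K))
    (h : ¬ ∃ v : Fin 2 → K, v ≠ 0 ∧ ∀ g ∈ G, ∃ c : K,
      (g.1 : Matrix (Fin 2) (Fin 2) K) *ᵥ v = c • v) : DsgSemisimple G := by
  apply dsgSemisimple_of_irreducible
  intro x hx
  induction x using Projectivization.ind with
  | h v hv => exact h ⟨v, hv, fun g hg => (dsg_smul_mk_eq_iff g v hv).mp (hx g hg)⟩

/-- groups with two distinct stable lines are semisimple -/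
theorem dsgSemisimple_of_two_fixed (G : Subgroup (GL (Fin 2) K)) (x y : DsgP1 K) (hxy : x ≠ y)
    (hx : ∀ g ∈ G, g • x = x) (hy : ∀ g ∈ G, g • y = y) : DsgSemisimple G := by
  intro z _
  by_cases hz : x = z
  · exact ⟨y, fun h => hxy (hz.trans h.symm), hy⟩
  · exact ⟨x, hz, hx⟩

/-- groups of diagonal matrices are semisimple -/
theorem dsgSemisimple_of_diagonal (G : Subgroup (GL (Fin 2) K))
    (h : ∀ g ∈ G, (g.1 : Matrix (Fin 2) (Fin 2) K) 0 1 = 0 ∧
      (g.1 : Matrix (Fin 2) (Fin 2) K) 1 0 = 0) : DsgSemisimple G := by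
  have e0 : (![1, 0] : Fin 2 → K) ≠ 0 := by
    intro h0; have := congrFun h0 0; simp at this
  have e1 : (![0, 1] : Fin 2 → K) ≠ 0 := by
    intro h0; have := congrFun h0 1; simp at this
  refine dsgSemisimple_of_two_fixed G (Projectivization.mk K _ e0) (Projectivization.mk K _ e1)
    ?_ ?_ ?_
  · intro h01
    rw [dsg_mk_eq_mk_iff] at h01
    simp at h01
  · intro g hg
    rw [dsg_smul_mk_eq_iff]
    refine ⟨(g.1 : Matrix (Fin 2) (Fin 2) K) 0 0, ?_⟩
    funext i
    fin_cases i
    · simp [Matrix.mulVec, dotProduct, Fin.sum_univ_two]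
    · simp [Matrix.mulVec, dotProduct, Fin.sum_univ_two, (h g hg).2]
  · intro g hg
    rw [dsg_smul_mk_eq_iff]
    refine ⟨(g.1 : Matrix (Fin 2) (Fin 2) K) 1 1, ?_⟩
    funext i
    fin_cases i
    · simp [Matrix.mulVec, dotProduct, Fin.sum_univ_two, (h g hg).1]
    · simp [Matrix.mulVec, dotProduct, Fin.sum_univ_two]

/-- **the submodule form of semisimplicity**: every stable subspace has a stable complement -/
theorem dsgSemisimple_of_submodule (G : Subgroup (GL (Fin 2) K))
    (h : ∀ W : Submodule K (Fin 2 → K),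
      (∀ g ∈ G, ∀ v ∈ W, (g.1 : Matrix (Fin 2) (Fin 2) K) *ᵥ v ∈ W) →
      ∃ W' : Submodule K (Fin 2 → K), IsCompl W W' ∧
        ∀ g ∈ G, ∀ v ∈ W', (g.1 : Matrix (Fin 2) (Fin 2) K) *ᵥ v ∈ W') : DsgSemisimple G := by
  intro x hx
  induction x using Projectivization.ind with
  | h v hv =>
    have hstable : ∀ g ∈ G, ∀ u ∈ Submodule.span K {v},
        (g.1 : Matrix (Fin 2) (Fin 2) K) *ᵥ u ∈ Submodule.span K {v} := by
      intro g hg u hu
      obtain ⟨a, rfl⟩ := Submodule.mem_span_singleton.mp hu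
      obtain ⟨c, hc⟩ := (dsg_smul_mk_eq_iff g v hv).mp (hx g hg)
      rw [Matrix.mulVec_smul, hc, smul_smul]
      exact Submodule.mem_span_singleton.mpr ⟨a * c, rfl⟩
    obtain ⟨W', hcompl, hW'⟩ := h _ hstable
    have hrank : Module.finrank K (Submodule.span K {v}) + Module.finrank K W' = 2 := by
      rw [Submodule.finrank_add_eq_of_isCompl hcompl, Module.finrank_fin_fun]
    rw [finrank_span_singleton hv] at hrank
    have hW'1 : Module.finrank K W' = 1 := by omega
    obtain ⟨w, hw0, hw⟩ := finrank_eq_one_iff'.mp hW'1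
    have hw0' : (w : Fin 2 → K) ≠ 0 := fun h0 => hw0 (Subtype.ext h0)
    refine ⟨Projectivization.mk K (w : Fin 2 → K) hw0', ?_, ?_⟩
    · intro heq
      rw [Projectivization.mk_eq_mk_iff'] at heq
      obtain ⟨a, ha⟩ := heq
      have h1 : (w : Fin 2 → K) ∈ Submodule.span K {v} :=
        Submodule.mem_span_singleton.mpr ⟨a, ha⟩
      have h2 : (w : Fin 2 → K) ∈ Submodule.span K {v} ⊓ W' := ⟨h1, w.2⟩
      rw [hcompl.inf_eq_bot] at h2
      exact hw0' h2
    · intro g hg
      rw [dsg_smul_mk_eq_iff]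
      obtain ⟨c, hc⟩ := hw ⟨(g.1 : Matrix (Fin 2) (Fin 2) K) *ᵥ (w : Fin 2 → K), hW' g hg _ w.2⟩
      refine ⟨c, ?_⟩
      have := congrArg Subtype.val hc
      simpa using this.symm

end Fermat.Agent.DS
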